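import Fermat.Agent.S21.helper21_Upper
import Fermat.Agent.S24.helper37_IndexGamma0
import Fermat.Agent.S24.helper27_FixedPoints
import Fermat.Agent.S24.helper83_CuspCount

/-!
# S21 from the dimension formula S20

The Eichler–Shimura statement S21 follows from the dimension formula
`dim S₂(Γ₀(N)) = genusFormula N` by a dimension count: the period map is injective with image
in the parabolic classes, and `dim H¹_par ≤ 2 g`.
-/

set_option autoImplicit false

open ModularCurve ModularCurve.Period CongruenceSubgroup
open scoped MatrixGroups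

namespace Fermat.Agent.S21

variable (N : ℕ) [NeZero N]

/-- The genus formula in orbit-count form. -/
theorem genusFormula_eq :
    (2 * ModularCurve.genusFormula N : ℚ)
      = (Nat.card (SL(2, ℤ) ⧸ Gamma0 N) : ℚ) + 2 - orbCount N ModularGroup.S
        - orbCount N (ModularGroup.S * ModularGroup.T) - orbCount N ModularGroup.T := by
  have h1 : Nat.card (SL(2, ℤ) ⧸ Gamma0 N) = ModularCurve.dedekindPsi N :=
    Fermat.Agent.S24.helper37.card_quotient_Gamma0 N
  have h2 : 2 * orbCount N ModularGroup.S
      = Nat.card (SL(2, ℤ) ⧸ Gamma0 N) + ModularCurve.nuTwo N :=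
    Fermat.Agent.S24.helper27.two_mul_card_orbits_S N
  have h3 : 3 * orbCount N (ModularGroup.S * ModularGroup.T)
      = Nat.card (SL(2, ℤ) ⧸ Gamma0 N) + 2 * ModularCurve.nuThree N :=
    Fermat.Agent.S24.helper27.three_mul_card_orbits_ST N
  have h4 : orbCount N ModularGroup.T = ModularCurve.cuspCount N :=
    Fermat.Agent.S24.helper83.card_orbits_T N
  have h2Q : (2 * orbCount N ModularGroup.S : ℚ)
      = Nat.card (SL(2, ℤ) ⧸ Gamma0 N) + ModularCurve.nuTwo N := by exact_mod_cast h2
  have h3Q : (3 * orbCount N (ModularGroup.S * ModularGroup.T) : ℚ)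
      = Nat.card (SL(2, ℤ) ⧸ Gamma0 N) + 2 * ModularCurve.nuThree N := by exact_mod_cast h3
  unfold ModularCurve.genusFormula
  rw [← h1, ← h4]
  linarith

/-- S21 follows from S20. -/
theorem result_of_genusFormula
    (h : (Module.finrank ℂ (CuspForm (Gamma0 N) 2) : ℚ) = ModularCurve.genusFormula N) :
    Function.Injective (periodHomPair N)
      ∧ LinearMap.range (periodHomPair N) = parabolicHoms ℂ (Gamma0 N) ℂ := by
  apply result_of_lower_bound
  have hg := genusFormula_eq N
  rw [← h] at hg
  have hQ : ((Nat.card (SL(2, ℤ) ⧸ Gamma0 N) + 2 : ℕ) : ℚ)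
      ≤ ((2 * Module.finrank ℂ (CuspForm (Gamma0 N) 2)
        + orbCount N ModularGroup.S + orbCount N (ModularGroup.S * ModularGroup.T)
        + orbCount N ModularGroup.T : ℕ) : ℚ) := by
    push_cast
    linarith
  exact_mod_cast hQ

end Fermat.Agent.S21
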