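import Mathlib
import Fermat.Prelude.Def_ModularCurve_PeriodMap

set_option autoImplicit false

open scoped MatrixGroups
open ModularCurve.Period

namespace Fermat.Agent.S21.helper83

section General

variable (Γ : Subgroup SL(2, ℤ))

/-- membership of the Schreier element in `Γ`. -/
lemma schreier_mem (g : SL(2, ℤ)) (x : SL(2, ℤ) ⧸ Γ) :
    (Quotient.out (g • x))⁻¹ * (g * Quotient.out x) ∈ Γ := by
  rw [← QuotientGroup.eq]
  rw [QuotientGroup.out_eq']
  have h : ((g * Quotient.out x : SL(2, ℤ)) : SL(2, ℤ) ⧸ Γ) =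
      g • ((Quotient.out x : SL(2, ℤ)) : SL(2, ℤ) ⧸ Γ) := rfl
  rw [h, QuotientGroup.out_eq']

/-- The Schreier element. -/
noncomputable def sch (g : SL(2, ℤ)) (x : SL(2, ℤ) ⧸ Γ) : Γ :=
  ⟨(Quotient.out (g • x))⁻¹ * (g * Quotient.out x), schreier_mem Γ g x⟩

lemma sch_mul (g h : SL(2, ℤ)) (x : SL(2, ℤ) ⧸ Γ) :
    sch Γ (g * h) x = sch Γ g (h • x) * sch Γ h x := by
  apply Subtype.ext
  simp only [sch, Subgroup.coe_mul, mul_smul]
  group

/-- The Schreier cocycle attached to an additive character of `Γ`. -/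
noncomputable def dco (φ : Additive Γ →+ ℂ) (g : SL(2, ℤ)) (x : SL(2, ℤ) ⧸ Γ) : ℂ :=
  φ (Additive.ofMul (sch Γ g x))

lemma dco_mul (φ : Additive Γ →+ ℂ) (g h : SL(2, ℤ)) (x : SL(2, ℤ) ⧸ Γ) :
    dco Γ φ (g * h) x = dco Γ φ g (h • x) + dco Γ φ h x := by
  unfold dco
  rw [sch_mul, ofMul_mul, map_add]

lemma dco_add (φ ψ : Additive Γ →+ ℂ) (g : SL(2, ℤ)) (x : SL(2, ℤ) ⧸ Γ) :
    dco Γ (φ + ψ) g x = dco Γ φ g x + dco Γ ψ g x := rfl

lemma dco_smul (c : ℂ) (φ : Additive Γ →+ ℂ) (g : SL(2, ℤ)) (x : SL(2, ℤ) ⧸ Γ) :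
    dco Γ (c • φ) g x = c * dco Γ φ g x := rfl

/-- trace of the Schreier element at a fixed point. -/
lemma trace_sch_of_fixed (g : SL(2, ℤ)) (x : SL(2, ℤ) ⧸ Γ) (hx : g • x = x) :
    ((sch Γ g x : SL(2, ℤ)) : Matrix (Fin 2) (Fin 2) ℤ).trace =
      (g : Matrix (Fin 2) (Fin 2) ℤ).trace := by
  have : (sch Γ g x : SL(2, ℤ)) = (Quotient.out x)⁻¹ * (g * Quotient.out x) := by
    simp only [sch]
    rw [hx]
  rw [this, Matrix.SpecialLinearGroup.coe_mul, Matrix.trace_mul_comm,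
    ← Matrix.SpecialLinearGroup.coe_mul, mul_assoc, mul_inv_cancel, mul_one]

/-- parabolic characters kill the cocycle at fixed points of elements of trace `±2`. -/
lemma dco_eq_zero_of_fixed {φ : Additive Γ →+ ℂ} (hφ : φ ∈ parabolicHoms ℂ Γ ℂ)
    (g : SL(2, ℤ)) (hg : (g : Matrix (Fin 2) (Fin 2) ℤ).trace ^ 2 = 4)
    (x : SL(2, ℤ) ⧸ Γ) (hx : g • x = x) : dco Γ φ g x = 0 := by
  apply hφ
  rw [trace_sch_of_fixed Γ g x hx, hg]

/-- base point: the trivial coset. -/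
def x0 : SL(2, ℤ) ⧸ Γ := ((1 : SL(2, ℤ)) : SL(2, ℤ) ⧸ Γ)

lemma smul_x0 (g : SL(2, ℤ)) : g • x0 Γ = (g : SL(2, ℤ) ⧸ Γ) := by
  show ((g * 1 : SL(2, ℤ)) : SL(2, ℤ) ⧸ Γ) = g
  rw [mul_one]

lemma smul_x0_of_mem {γ : SL(2, ℤ)} (hγ : γ ∈ Γ) : γ • x0 Γ = x0 Γ := by
  rw [smul_x0, x0, QuotientGroup.eq]
  simpa using Γ.inv_mem hγ

lemma out_x0_mem : (Quotient.out (x0 Γ) : SL(2, ℤ)) ∈ Γ := by
  have h : ((Quotient.out (x0 Γ) : SL(2, ℤ)) : SL(2, ℤ) ⧸ Γ) = ((1 : SL(2, ℤ)) : SL(2, ℤ) ⧸ Γ) :=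
    QuotientGroup.out_eq' (x0 Γ)
  rw [QuotientGroup.eq] at h
  have h2 := Γ.inv_mem h
  simpa using h2

lemma dco_x0 (φ : Additive Γ →+ ℂ) (γ : Γ) : dco Γ φ (γ : SL(2, ℤ)) (x0 Γ) = φ (Additive.ofMul γ) := by
  have hfix := smul_x0_of_mem Γ γ.2
  have h : sch Γ (γ : SL(2, ℤ)) (x0 Γ) =
      (⟨Quotient.out (x0 Γ), out_x0_mem Γ⟩ : Γ)⁻¹ * (γ * ⟨Quotient.out (x0 Γ), out_x0_mem Γ⟩) := by
    apply Subtype.ext
    simp only [sch, Subgroup.coe_mul, Subgroup.coe_inv]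
    rw [hfix]
  unfold dco
  rw [h, ofMul_mul, ofMul_mul, ofMul_inv, map_add, map_add, map_neg]
  ring

/-- "cocycles" for the right action. -/
def IsCocycle (e : SL(2, ℤ) → (SL(2, ℤ) ⧸ Γ) → ℂ) : Prop :=
  ∀ g h x, e (g * h) x = e g (h • x) + e h x

lemma IsCocycle.one {e : SL(2, ℤ) → (SL(2, ℤ) ⧸ Γ) → ℂ} (he : IsCocycle Γ e) (x) : e 1 x = 0 := by
  have := he 1 1 x
  simp only [mul_one, one_smul] at this
  linear_combination -this

/-- a cocycle vanishing on `S` and `T` vanishes identically. -/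
lemma IsCocycle.eq_zero {e : SL(2, ℤ) → (SL(2, ℤ) ⧸ Γ) → ℂ} (he : IsCocycle Γ e)
    (hS : ∀ x, e ModularGroup.S x = 0) (hT : ∀ x, e ModularGroup.T x = 0) (g : SL(2, ℤ)) (x) :
    e g x = 0 := by
  let H : Subgroup SL(2, ℤ) :=
    { carrier := {g | ∀ x, e g x = 0}
      one_mem' := fun x => he.one Γ x
      mul_mem' := by
        intro a b ha hb x
        rw [he a b x, ha, hb, add_zero]
      inv_mem' := by
        intro a ha x
        have h1 := he a⁻¹ a (a⁻¹ • x)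
        rw [inv_mul_cancel, he.one Γ, smul_inv_smul, ha, add_zero] at h1
        exact h1.symm }
  have hle : Subgroup.closure {ModularGroup.S, ModularGroup.T} ≤ H := by
    rw [Subgroup.closure_le]
    rintro y (rfl | rfl)
    · exact hS
    · exact hT
  rw [SpecialLinearGroup.SL2Z_generators] at hle
  exact hle (Subgroup.mem_top g) x

lemma isCocycle_dco (φ : Additive Γ →+ ℂ) : IsCocycle Γ (dco Γ φ) := dco_mul Γ φ

lemma isCocycle_cob (f : (SL(2, ℤ) ⧸ Γ) → ℂ) : IsCocycle Γ (fun g x => f (g • x) - f x) := by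
  intro g h x
  simp only [mul_smul]
  ring

lemma IsCocycle.add {e e' : SL(2, ℤ) → (SL(2, ℤ) ⧸ Γ) → ℂ} (he : IsCocycle Γ e)
    (he' : IsCocycle Γ e') : IsCocycle Γ (fun g x => e g x + e' g x) := by
  intro g h x
  simp only [he g h x, he' g h x]
  ring

/-- invariant functions are constant. -/
lemma const_of_invariant (Λ : (SL(2, ℤ) ⧸ Γ) → ℂ) (hS : ∀ x, Λ (ModularGroup.S • x) = Λ x)
    (hT : ∀ x, Λ (ModularGroup.T • x) = Λ x) (x : SL(2, ℤ) ⧸ Γ) : Λ x = Λ (x0 Γ) := by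
  have h := (isCocycle_cob Γ Λ).eq_zero Γ (fun x => by simp [hS]) (fun x => by simp [hT])
  induction x using QuotientGroup.induction_on with
  | H g =>
    have := h g (x0 Γ)
    rw [smul_x0] at this
    linear_combination this

section Relations

variable (hneg : (-1 : SL(2, ℤ)) ∈ Γ)
include hneg

lemma neg_one_smul' (x : SL(2, ℤ) ⧸ Γ) : (-1 : SL(2, ℤ)) • x = x := by
  induction x using QuotientGroup.induction_on with
  | H g =>
    show ((-1 * g : SL(2, ℤ)) : SL(2, ℤ) ⧸ Γ) = g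
    rw [QuotientGroup.eq]
    have : (-1 * g)⁻¹ * g = (-1 : SL(2, ℤ)) := by
      rw [neg_one_mul, inv_neg, neg_mul, inv_mul_cancel]
    rw [this]
    exact hneg

lemma S_S_smul (x : SL(2, ℤ) ⧸ Γ) : ModularGroup.S • ModularGroup.S • x = x := by
  rw [← mul_smul]
  have : ModularGroup.S * ModularGroup.S = (-1 : SL(2, ℤ)) := by decide
  rw [this, neg_one_smul' Γ hneg]

lemma U_U_U_smul (x : SL(2, ℤ) ⧸ Γ) :
    (ModularGroup.S * ModularGroup.T) • (ModularGroup.S * ModularGroup.T) •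
      (ModularGroup.S * ModularGroup.T) • x = x := by
  rw [← mul_smul, ← mul_smul]
  have : (ModularGroup.S * ModularGroup.T) * (ModularGroup.S * ModularGroup.T) *
      (ModularGroup.S * ModularGroup.T) = (-1 : SL(2, ℤ)) := by decide
  rw [this, neg_one_smul' Γ hneg]

variable {φ : Additive Γ →+ ℂ} (hφ : φ ∈ parabolicHoms ℂ Γ ℂ)
include hφ

lemma dco_neg_one (x : SL(2, ℤ) ⧸ Γ) : dco Γ φ (-1) x = 0 :=
  dco_eq_zero_of_fixed Γ hφ (-1) (by simp) x (neg_one_smul' Γ hneg x)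

lemma dco_S_rel (x : SL(2, ℤ) ⧸ Γ) :
    dco Γ φ ModularGroup.S (ModularGroup.S • x) + dco Γ φ ModularGroup.S x = 0 := by
  rw [← dco_mul]
  have : ModularGroup.S * ModularGroup.S = (-1 : SL(2, ℤ)) := by decide
  rw [this, dco_neg_one Γ hneg hφ]

lemma dco_U_rel (x : SL(2, ℤ) ⧸ Γ) :
    dco Γ φ (ModularGroup.S * ModularGroup.T)
        ((ModularGroup.S * ModularGroup.T) • (ModularGroup.S * ModularGroup.T) • x) +
      dco Γ φ (ModularGroup.S * ModularGroup.T) ((ModularGroup.S * ModularGroup.T) • x) +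
      dco Γ φ (ModularGroup.S * ModularGroup.T) x = 0 := by
  have h1 := dco_mul Γ φ (ModularGroup.S * ModularGroup.T) (ModularGroup.S * ModularGroup.T) x
  have h2 := dco_mul Γ φ (ModularGroup.S * ModularGroup.T)
    ((ModularGroup.S * ModularGroup.T) * (ModularGroup.S * ModularGroup.T)) x
  have : (ModularGroup.S * ModularGroup.T) * ((ModularGroup.S * ModularGroup.T) *
      (ModularGroup.S * ModularGroup.T)) = (-1 : SL(2, ℤ)) := by decide
  rw [this, dco_neg_one Γ hneg hφ, mul_smul] at h2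
  rw [h1] at h2
  linear_combination -h2

end Relations

lemma dco_pow (φ : Additive Γ →+ ℂ) (g : SL(2, ℤ)) (k : ℕ) (x : SL(2, ℤ) ⧸ Γ) :
    dco Γ φ (g ^ k) x = ∑ i ∈ Finset.range k, dco Γ φ g (g ^ i • x) := by
  induction k generalizing x with
  | zero =>
    rw [pow_zero, Finset.range_zero, Finset.sum_empty]
    exact (isCocycle_dco Γ φ).one Γ x
  | succ k ih =>
    have h1 : g ^ (k + 1) = g ^ k * g := pow_succ g k
    rw [h1, dco_mul, ih, Finset.sum_range_succ']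
    have e1 : dco Γ φ g (g ^ 0 • x) = dco Γ φ g x := by
      have : g ^ 0 • x = x := by
        have h0 : g ^ 0 = 1 := pow_zero g
        rw [h0]
        exact one_smul _ x
      rw [this]
    have e2 : ∀ i ∈ Finset.range k, dco Γ φ g (g ^ (i + 1) • x) = dco Γ φ g (g ^ i • g • x) := by
      intro i _
      have h3 : g ^ (i + 1) = g ^ i * g := pow_succ g i
      rw [h3, mul_smul]
    rw [e1, Finset.sum_congr rfl e2]

lemma dco_T_pow_eq_zero {φ : Additive Γ →+ ℂ} (hφ : φ ∈ parabolicHoms ℂ Γ ℂ) (n : ℕ)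
    (x : SL(2, ℤ) ⧸ Γ) (hx : ModularGroup.T ^ n • x = x) :
    ∑ i ∈ Finset.range n, dco Γ φ ModularGroup.T (ModularGroup.T ^ i • x) = 0 := by
  rw [← dco_pow]
  refine dco_eq_zero_of_fixed Γ hφ _ ?_ x hx
  rw [← zpow_natCast, ModularGroup.coe_T_zpow]
  simp [Matrix.trace_fin_two]

section Sums

variable [Fintype (SL(2, ℤ) ⧸ Γ)]

/-- reindexing a sum by the action of a group element. -/
lemma sum_smul_mul (g : SL(2, ℤ)) (k ω : (SL(2, ℤ) ⧸ Γ) → ℂ) (hω : ∀ x, ω (g • x) = ω x) :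
    ∑ x, k (g • x) * ω x = ∑ x, k x * ω x := by
  have := Equiv.sum_comp (MulAction.toPerm g : Equiv.Perm (SL(2, ℤ) ⧸ Γ)) (fun y => k y * ω y)
  simp only [MulAction.toPerm_apply, hω] at this
  exact this

lemma sum_pow_smul_mul (g : SL(2, ℤ)) (i : ℕ) (k ω : (SL(2, ℤ) ⧸ Γ) → ℂ)
    (hω : ∀ x, ω (g • x) = ω x) :
    ∑ x, k (g ^ i • x) * ω x = ∑ x, k x * ω x := by
  refine sum_smul_mul Γ (g ^ i) k ω ?_
  intro x
  induction i generalizing x with
  | zero => simp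
  | succ i ih => rw [pow_succ, mul_smul, ih, hω]

end Sums

section Orthogonality

variable [Fintype (SL(2, ℤ) ⧸ Γ)] (hneg : (-1 : SL(2, ℤ)) ∈ Γ)
  {φ : Additive Γ →+ ℂ} (hφ : φ ∈ parabolicHoms ℂ Γ ℂ) (f : (SL(2, ℤ) ⧸ Γ) → ℂ)

/-- the `S`-component of the cocycle `dco φ + ∂f`. -/
noncomputable def aF (φ : Additive Γ →+ ℂ) (f : (SL(2, ℤ) ⧸ Γ) → ℂ) (x : SL(2, ℤ) ⧸ Γ) : ℂ :=
  dco Γ φ ModularGroup.S x + (f (ModularGroup.S • x) - f x)

/-- the `S*T`-component of the cocycle `dco φ + ∂f`. -/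
noncomputable def bF (φ : Additive Γ →+ ℂ) (f : (SL(2, ℤ) ⧸ Γ) → ℂ) (x : SL(2, ℤ) ⧸ Γ) : ℂ :=
  dco Γ φ (ModularGroup.S * ModularGroup.T) x + (f ((ModularGroup.S * ModularGroup.T) • x) - f x)

include hneg hφ in
lemma orth_S (ω : (SL(2, ℤ) ⧸ Γ) → ℂ) (hω : ∀ x, ω (ModularGroup.S • x) = ω x) :
    ∑ x, aF Γ φ f x * ω x = 0 := by
  have h1 : ∀ x, aF Γ φ f (ModularGroup.S • x) + aF Γ φ f x = 0 := by
    intro x
    unfold aF
    rw [S_S_smul Γ hneg]
    linear_combination dco_S_rel Γ hneg hφ x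
  have h2 := sum_smul_mul Γ ModularGroup.S (aF Γ φ f) ω hω
  have h3 : ∑ x, (aF Γ φ f (ModularGroup.S • x) + aF Γ φ f x) * ω x = 0 :=
    Finset.sum_eq_zero (fun x _ => by rw [h1, zero_mul])
  simp only [add_mul, Finset.sum_add_distrib] at h3
  rw [h2] at h3
  have h4 : (2 : ℂ) * ∑ x, aF Γ φ f x * ω x = 0 := by linear_combination h3
  simpa using h4

include hneg hφ in
lemma orth_U (ω : (SL(2, ℤ) ⧸ Γ) → ℂ)
    (hω : ∀ x, ω ((ModularGroup.S * ModularGroup.T) • x) = ω x) :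
    ∑ x, bF Γ φ f x * ω x = 0 := by
  have h1 : ∀ x, bF Γ φ f ((ModularGroup.S * ModularGroup.T) •
      (ModularGroup.S * ModularGroup.T) • x) +
      bF Γ φ f ((ModularGroup.S * ModularGroup.T) • x) + bF Γ φ f x = 0 := by
    intro x
    unfold bF
    rw [U_U_U_smul Γ hneg]
    linear_combination dco_U_rel Γ hneg hφ x
  have h2 := sum_smul_mul Γ (ModularGroup.S * ModularGroup.T) (bF Γ φ f) ω hω
  have h2' := sum_smul_mul Γ (ModularGroup.S * ModularGroup.T)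
    (fun x => bF Γ φ f ((ModularGroup.S * ModularGroup.T) • x)) ω hω
  have h3 : ∑ x, (bF Γ φ f ((ModularGroup.S * ModularGroup.T) •
      (ModularGroup.S * ModularGroup.T) • x) +
      bF Γ φ f ((ModularGroup.S * ModularGroup.T) • x) + bF Γ φ f x) * ω x = 0 :=
    Finset.sum_eq_zero (fun x _ => by rw [h1, zero_mul])
  simp only [add_mul, Finset.sum_add_distrib] at h3
  rw [h2', h2] at h3
  have h4 : (3 : ℂ) * ∑ x, bF Γ φ f x * ω x = 0 := by linear_combination h3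
  simpa using h4

include hφ in
lemma orth_T (n : ℕ) (hn : 0 < n) (hTn : ∀ x : SL(2, ℤ) ⧸ Γ, ModularGroup.T ^ n • x = x)
    (ω : (SL(2, ℤ) ⧸ Γ) → ℂ) (hω : ∀ x, ω (ModularGroup.T • x) = ω x) :
    ∑ x, (bF Γ φ f x - aF Γ φ f x) * ω x = 0 := by
  -- the `dco T` part
  have hT : ∑ x, dco Γ φ ModularGroup.T x * ω x = 0 := by
    have h1 : ∑ i ∈ Finset.range n, ∑ x, dco Γ φ ModularGroup.T (ModularGroup.T ^ i • x) * ω x =
        (n : ℂ) * ∑ x, dco Γ φ ModularGroup.T x * ω x := by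
      rw [Finset.sum_congr rfl (fun i _ =>
        sum_pow_smul_mul Γ ModularGroup.T i (dco Γ φ ModularGroup.T) ω hω)]
      simp
    have h2 : ∑ i ∈ Finset.range n, ∑ x, dco Γ φ ModularGroup.T (ModularGroup.T ^ i • x) * ω x
        = 0 := by
      rw [Finset.sum_comm]
      refine Finset.sum_eq_zero (fun x _ => ?_)
      rw [← Finset.sum_mul, dco_T_pow_eq_zero Γ hφ n x (hTn x), zero_mul]
    rw [h2] at h1
    have hn' : (n : ℂ) ≠ 0 := by exact_mod_cast hn.ne'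
    exact (mul_eq_zero.mp h1.symm).resolve_left hn'
  -- the telescoping part
  have hk := sum_smul_mul Γ ModularGroup.T
    (fun x => dco Γ φ ModularGroup.S x + f (ModularGroup.S • x)) ω hω
  have hpt : ∀ x, (bF Γ φ f x - aF Γ φ f x) * ω x =
      (dco Γ φ ModularGroup.S (ModularGroup.T • x) + f (ModularGroup.S • ModularGroup.T • x)) * ω x
        - (dco Γ φ ModularGroup.S x + f (ModularGroup.S • x)) * ω x
        + dco Γ φ ModularGroup.T x * ω x := by
    intro x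
    unfold aF bF
    rw [dco_mul, mul_smul]
    ring
  rw [Finset.sum_congr rfl (fun x _ => hpt x), Finset.sum_add_distrib, Finset.sum_sub_distrib,
    hk, hT]
  ring

end Orthogonality

section Main

/-- orbit spaces -/
abbrev Orb (g : SL(2, ℤ)) : Type :=
  MulAction.orbitRel.Quotient (Subgroup.zpowers g) (SL(2, ℤ) ⧸ Γ)

/-- projection to the orbit space -/
def orb (g : SL(2, ℤ)) (x : SL(2, ℤ) ⧸ Γ) : Orb Γ g := Quotient.mk'' x

lemma orb_smul (g : SL(2, ℤ)) (x : SL(2, ℤ) ⧸ Γ) : orb Γ g (g • x) = orb Γ g x := by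
  apply Quotient.sound'
  exact ⟨⟨g, Subgroup.mem_zpowers g⟩, rfl⟩

lemma orb_surjective (g : SL(2, ℤ)) : Function.Surjective (orb Γ g) :=
  Quotient.mk''_surjective

lemma aF_add (φ ψ : Additive Γ →+ ℂ) (f h : (SL(2, ℤ) ⧸ Γ) → ℂ) (x) :
    aF Γ (φ + ψ) (f + h) x = aF Γ φ f x + aF Γ ψ h x := by
  simp only [aF, dco_add, Pi.add_apply]; ring

lemma aF_smul (c : ℂ) (φ : Additive Γ →+ ℂ) (f : (SL(2, ℤ) ⧸ Γ) → ℂ) (x) :
    aF Γ (c • φ) (c • f) x = c * aF Γ φ f x := by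
  simp only [aF, dco_smul, Pi.smul_apply, smul_eq_mul]; ring

lemma bF_add (φ ψ : Additive Γ →+ ℂ) (f h : (SL(2, ℤ) ⧸ Γ) → ℂ) (x) :
    bF Γ (φ + ψ) (f + h) x = bF Γ φ f x + bF Γ ψ h x := by
  simp only [bF, dco_add, Pi.add_apply]; ring

lemma bF_smul (c : ℂ) (φ : Additive Γ →+ ℂ) (f : (SL(2, ℤ) ⧸ Γ) → ℂ) (x) :
    bF Γ (c • φ) (c • f) x = c * bF Γ φ f x := by
  simp only [bF, dco_smul, Pi.smul_apply, smul_eq_mul]; ring

/-- The big linear map. -/
noncomputable def bigMap :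
    (parabolicHoms ℂ Γ ℂ × ((SL(2, ℤ) ⧸ Γ) → ℂ) ×
      ((Orb Γ ModularGroup.S → ℂ) × (Orb Γ (ModularGroup.S * ModularGroup.T) → ℂ) ×
        (Orb Γ ModularGroup.T → ℂ))) →ₗ[ℂ]
    (((SL(2, ℤ) ⧸ Γ) → ℂ) × ((SL(2, ℤ) ⧸ Γ) → ℂ) × ℂ × ℂ) where
  toFun p :=
    (fun x => aF Γ p.1.1 p.2.1 x + (p.2.2.1 (orb Γ _ x) - p.2.2.2.2 (orb Γ _ x)),
     fun x => bF Γ p.1.1 p.2.1 x + (p.2.2.2.1 (orb Γ _ x) + p.2.2.2.2 (orb Γ _ x)),
     p.2.1 (x0 Γ), p.2.2.2.2 (orb Γ _ (x0 Γ)))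
  map_add' p q := by
    refine Prod.ext ?_ (Prod.ext ?_ (Prod.ext ?_ ?_))
    · funext x
      simp only [Prod.fst_add, Prod.snd_add, Submodule.coe_add, aF_add, Pi.add_apply]
      ring
    · funext x
      simp only [Prod.fst_add, Prod.snd_add, Submodule.coe_add, bF_add, Pi.add_apply]
      ring
    · simp
    · simp
  map_smul' c p := by
    refine Prod.ext ?_ (Prod.ext ?_ (Prod.ext ?_ ?_))
    · funext x
      simp only [Prod.smul_fst, Prod.smul_snd, Submodule.coe_smul, aF_smul, Pi.smul_apply,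
        smul_eq_mul, RingHom.id_apply]
      ring
    · funext x
      simp only [Prod.smul_fst, Prod.smul_snd, Submodule.coe_smul, bF_smul, Pi.smul_apply,
        smul_eq_mul, RingHom.id_apply]
      ring
    · simp
    · simp

lemma bigMap_injective [Fintype (SL(2, ℤ) ⧸ Γ)] (hneg : (-1 : SL(2, ℤ)) ∈ Γ)
    (n : ℕ) (hn : 0 < n) (hTn : ∀ x : SL(2, ℤ) ⧸ Γ, ModularGroup.T ^ n • x = x) :
    Function.Injective (bigMap Γ) := by
  rw [← LinearMap.ker_eq_bot, LinearMap.ker_eq_bot']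
  rintro ⟨⟨φ, hφ⟩, f, α, β, lam⟩ h
  have h1 : ∀ x, aF Γ φ f x + (α (orb Γ _ x) - lam (orb Γ _ x)) = 0 :=
    fun x => congrFun (congrArg Prod.fst h) x
  have h2 : ∀ x, bF Γ φ f x + (β (orb Γ _ x) + lam (orb Γ _ x)) = 0 :=
    fun x => congrFun (congrArg (fun p => p.2.1) h) x
  have h3 : f (x0 Γ) = 0 := congrArg (fun p => p.2.2.1) h
  have h4 : lam (orb Γ _ (x0 Γ)) = 0 := congrArg (fun p => p.2.2.2) h
  -- Step 1: the cocycle components vanish
  have O1 := orth_S Γ hneg hφ f (fun x => (starRingEnd ℂ) (α (orb Γ _ x)))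
    (fun x => by rw [orb_smul])
  have O2 := orth_U Γ hneg hφ f (fun x => (starRingEnd ℂ) (β (orb Γ _ x)))
    (fun x => by rw [orb_smul])
  have O3 := orth_T Γ hφ f n hn hTn (fun x => (starRingEnd ℂ) (lam (orb Γ _ x)))
    (fun x => by rw [orb_smul])
  have hsum : ∑ x, (aF Γ φ f x * (starRingEnd ℂ) (aF Γ φ f x) +
      bF Γ φ f x * (starRingEnd ℂ) (bF Γ φ f x)) = 0 := by
    have hpt : ∀ x, aF Γ φ f x * (starRingEnd ℂ) (aF Γ φ f x) +
        bF Γ φ f x * (starRingEnd ℂ) (bF Γ φ f x) =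
        -(aF Γ φ f x * (starRingEnd ℂ) (α (orb Γ _ x)))
        - bF Γ φ f x * (starRingEnd ℂ) (β (orb Γ _ x))
        - (bF Γ φ f x - aF Γ φ f x) * (starRingEnd ℂ) (lam (orb Γ _ x)) := by
      intro x
      have ea : aF Γ φ f x = -(α (orb Γ _ x) - lam (orb Γ _ x)) := by linear_combination h1 x
      have eb : bF Γ φ f x = -(β (orb Γ _ x) + lam (orb Γ _ x)) := by linear_combination h2 x
      have ea' : (starRingEnd ℂ) (aF Γ φ f x) =
          -((starRingEnd ℂ) (α (orb Γ _ x)) - (starRingEnd ℂ) (lam (orb Γ _ x))) := by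
        rw [ea]; simp
      have eb' : (starRingEnd ℂ) (bF Γ φ f x) =
          -((starRingEnd ℂ) (β (orb Γ _ x)) + (starRingEnd ℂ) (lam (orb Γ _ x))) := by
        rw [eb]; simp
      rw [ea', eb']
      ring
    rw [Finset.sum_congr rfl (fun x _ => hpt x), Finset.sum_sub_distrib, Finset.sum_sub_distrib,
      Finset.sum_neg_distrib, O1, O2, O3]
    ring
  have hsumR : ∑ x, (Complex.normSq (aF Γ φ f x) + Complex.normSq (bF Γ φ f x)) = 0 := by
    have : ((∑ x, (Complex.normSq (aF Γ φ f x) + Complex.normSq (bF Γ φ f x)) : ℝ) : ℂ) = 0 := by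
      rw [← hsum]
      push_cast
      refine Finset.sum_congr rfl (fun x _ => ?_)
      rw [Complex.mul_conj, Complex.mul_conj]
    exact_mod_cast this
  have hzero : ∀ x, aF Γ φ f x = 0 ∧ bF Γ φ f x = 0 := by
    intro x
    have hx := (Finset.sum_eq_zero_iff_of_nonneg (fun y _ =>
      add_nonneg (Complex.normSq_nonneg _) (Complex.normSq_nonneg _))).mp hsumR x (Finset.mem_univ x)
    have ha : Complex.normSq (aF Γ φ f x) = 0 := by
      have := Complex.normSq_nonneg (aF Γ φ f x)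
      have := Complex.normSq_nonneg (bF Γ φ f x)
      linarith
    have hb : Complex.normSq (bF Γ φ f x) = 0 := by
      have := Complex.normSq_nonneg (aF Γ φ f x)
      have := Complex.normSq_nonneg (bF Γ φ f x)
      linarith
    exact ⟨Complex.normSq_eq_zero.mp ha, Complex.normSq_eq_zero.mp hb⟩
  -- Step 2: the cocycle `dco φ + ∂f` vanishes
  have hcoc : IsCocycle Γ (fun g x => dco Γ φ g x + (f (g • x) - f x)) :=
    (isCocycle_dco Γ φ).add Γ (isCocycle_cob Γ f)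
  have hS : ∀ x, dco Γ φ ModularGroup.S x + (f (ModularGroup.S • x) - f x) = 0 :=
    fun x => (hzero x).1
  have hU : ∀ x, dco Γ φ (ModularGroup.S * ModularGroup.T) x +
      (f ((ModularGroup.S * ModularGroup.T) • x) - f x) = 0 := fun x => (hzero x).2
  have hT : ∀ x, dco Γ φ ModularGroup.T x + (f (ModularGroup.T • x) - f x) = 0 := by
    intro x
    have : dco Γ φ (ModularGroup.S * ModularGroup.T) x +
        (f ((ModularGroup.S * ModularGroup.T) • x) - f x) =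
        (dco Γ φ ModularGroup.S (ModularGroup.T • x) +
          (f (ModularGroup.S • ModularGroup.T • x) - f (ModularGroup.T • x))) +
        (dco Γ φ ModularGroup.T x + (f (ModularGroup.T • x) - f x)) :=
      hcoc ModularGroup.S ModularGroup.T x
    rw [hU x, hS (ModularGroup.T • x)] at this
    linear_combination -this
  have hall : ∀ (g : SL(2, ℤ)) (x : SL(2, ℤ) ⧸ Γ), dco Γ φ g x + (f (g • x) - f x) = 0 :=
    hcoc.eq_zero Γ hS hT
  have hφ0 : ∀ γ : Γ, φ (Additive.ofMul γ) = 0 := by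
    intro γ
    have := hall (γ : SL(2, ℤ)) (x0 Γ)
    rw [dco_x0, smul_x0_of_mem Γ γ.2] at this
    linear_combination this
  have hφ0' : φ = 0 := by
    ext γ
    exact hφ0 (Additive.toMul γ)
  have hf0 : f = 0 := by
    funext x
    induction x using QuotientGroup.induction_on with
    | H g =>
      have := hall g (x0 Γ)
      have hd : dco Γ φ g (x0 Γ) = 0 := hφ0 _
      rw [hd, smul_x0, h3] at this
      simpa using this
  -- Step 3: the orbit functions vanish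
  have hα : ∀ x, α (orb Γ _ x) = lam (orb Γ _ x) := by
    intro x
    have := h1 x
    rw [(hzero x).1] at this
    linear_combination this
  have hβ : ∀ x, β (orb Γ _ x) = -lam (orb Γ _ x) := by
    intro x
    have := h2 x
    rw [(hzero x).2] at this
    linear_combination this
  have hΛ : ∀ x, lam (orb Γ ModularGroup.T x) = 0 := by
    intro x
    have := const_of_invariant Γ (fun x => lam (orb Γ ModularGroup.T x))
      (fun y => by
        show lam (orb Γ ModularGroup.T (ModularGroup.S • y)) = lam (orb Γ ModularGroup.T y)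
        rw [← hα, ← hα, orb_smul])
      (fun y => by
        show lam (orb Γ ModularGroup.T (ModularGroup.T • y)) = lam (orb Γ ModularGroup.T y)
        rw [orb_smul]) x
    rw [show lam (orb Γ ModularGroup.T x) = lam (orb Γ ModularGroup.T (x0 Γ)) from this, h4]
  have hlam : lam = 0 := by
    funext O
    obtain ⟨x, rfl⟩ := orb_surjective Γ ModularGroup.T O
    exact hΛ x
  have hα0 : α = 0 := by
    funext O
    obtain ⟨x, rfl⟩ := orb_surjective Γ ModularGroup.S O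
    rw [hα, hΛ]; rfl
  have hβ0 : β = 0 := by
    funext O
    obtain ⟨x, rfl⟩ := orb_surjective Γ (ModularGroup.S * ModularGroup.T) O
    rw [hβ, hΛ]; simp
  subst hφ0' hf0 hlam hα0 hβ0
  rfl

/-- some positive power of `T` acts trivially on a finite coset space. -/
lemma exists_T_pow_smul [Finite (SL(2, ℤ) ⧸ Γ)] :
    ∃ n : ℕ, 0 < n ∧ ∀ x : SL(2, ℤ) ⧸ Γ, ModularGroup.T ^ n • x = x := by
  classical
  have : Fintype (SL(2, ℤ) ⧸ Γ) := Fintype.ofFinite _
  refine ⟨Fintype.card (Equiv.Perm (SL(2, ℤ) ⧸ Γ)), Fintype.card_pos, fun x => ?_⟩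
  have h : (MulAction.toPermHom SL(2, ℤ) (SL(2, ℤ) ⧸ Γ) ModularGroup.T) ^
      Fintype.card (Equiv.Perm (SL(2, ℤ) ⧸ Γ)) = 1 := pow_card_eq_one
  rw [← map_pow] at h
  have := congrArg (fun p : Equiv.Perm (SL(2, ℤ) ⧸ Γ) => p x) h
  simpa using this

/-- **Group-theoretic upper bound** for the space of parabolic characters of a finite index
subgroup `Γ ≤ SL(2, ℤ)` containing `-1`:
`dim Hom_par(Γ, ℂ) + #orbits(S) + #orbits(ST) + #orbits(T) ≤ [SL₂(ℤ) : Γ] + 2`. -/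
theorem finrank_parabolicHoms_add_le [Finite (SL(2, ℤ) ⧸ Γ)] (hneg : (-1 : SL(2, ℤ)) ∈ Γ) :
    FiniteDimensional ℂ (parabolicHoms ℂ Γ ℂ) ∧
    Module.finrank ℂ (parabolicHoms ℂ Γ ℂ)
      + Nat.card (MulAction.orbitRel.Quotient (Subgroup.zpowers ModularGroup.S) (SL(2, ℤ) ⧸ Γ))
      + Nat.card (MulAction.orbitRel.Quotient
          (Subgroup.zpowers (ModularGroup.S * ModularGroup.T)) (SL(2, ℤ) ⧸ Γ))
      + Nat.card (MulAction.orbitRel.Quotient (Subgroup.zpowers ModularGroup.T) (SL(2, ℤ) ⧸ Γ))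
      ≤ Nat.card (SL(2, ℤ) ⧸ Γ) + 2 := by
  classical
  have : Fintype (SL(2, ℤ) ⧸ Γ) := Fintype.ofFinite _
  have : Fintype (Orb Γ ModularGroup.S) := Fintype.ofFinite _
  have : Fintype (Orb Γ (ModularGroup.S * ModularGroup.T)) := Fintype.ofFinite _
  have : Fintype (Orb Γ ModularGroup.T) := Fintype.ofFinite _
  obtain ⟨n, hn, hTn⟩ := exists_T_pow_smul Γ
  have hinj := bigMap_injective Γ hneg n hn hTn
  have hfd : FiniteDimensional ℂ (parabolicHoms ℂ Γ ℂ) := by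
    refine FiniteDimensional.of_injective ((bigMap Γ).comp (LinearMap.inl ℂ _ _)) ?_
    exact hinj.comp LinearMap.inl_injective
  refine ⟨hfd, ?_⟩
  have hle := LinearMap.finrank_le_finrank_of_injective hinj
  simp only [Module.finrank_prod, Module.finrank_fintype_fun_eq_card, Module.finrank_self,
    Fintype.card_eq_nat_card] at hle
  unfold Orb at hle
  omega

end Main

end General

/-- The bound in the exact shape of task 105 (helper21's interface). -/
theorem finrank_parabolicHoms_le (Γ : Subgroup SL(2, ℤ)) [Γ.FiniteIndex]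
    (hneg : (-1 : SL(2, ℤ)) ∈ Γ) :
    Module.Finite ℂ (ModularCurve.Period.parabolicHoms ℂ Γ ℂ) ∧
    Module.finrank ℂ (ModularCurve.Period.parabolicHoms ℂ Γ ℂ)
      + Nat.card (MulAction.orbitRel.Quotient (Subgroup.zpowers ModularGroup.S) (SL(2, ℤ) ⧸ Γ))
      + Nat.card (MulAction.orbitRel.Quotient
          (Subgroup.zpowers (ModularGroup.S * ModularGroup.T)) (SL(2, ℤ) ⧸ Γ))
      + Nat.card (MulAction.orbitRel.Quotient (Subgroup.zpowers ModularGroup.T) (SL(2, ℤ) ⧸ Γ))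
      ≤ Nat.card (SL(2, ℤ) ⧸ Γ) + 2 := by
  have : Finite (SL(2, ℤ) ⧸ Γ) := Subgroup.finite_quotient_of_finiteIndex
  exact finrank_parabolicHoms_add_le Γ hneg

open CongruenceSubgroup in
/-- The bound for `Γ₀(N)`, in the shape used by the S24 combinatorics tasks. -/
theorem finrank_parabolicHoms_Gamma0_add_le (N : ℕ) [NeZero N] :
    FiniteDimensional ℂ (parabolicHoms ℂ (Gamma0 N) ℂ) ∧
    Module.finrank ℂ (parabolicHoms ℂ (Gamma0 N) ℂ)
      + Nat.card (MulAction.orbitRel.Quotient (Subgroup.zpowers ModularGroup.S)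
          (SL(2, ℤ) ⧸ Gamma0 N))
      + Nat.card (MulAction.orbitRel.Quotient
          (Subgroup.zpowers (ModularGroup.S * ModularGroup.T)) (SL(2, ℤ) ⧸ Gamma0 N))
      + Nat.card (MulAction.orbitRel.Quotient (Subgroup.zpowers ModularGroup.T)
          (SL(2, ℤ) ⧸ Gamma0 N))
      ≤ Nat.card (SL(2, ℤ) ⧸ Gamma0 N) + 2 := by
  have : Finite (SL(2, ℤ) ⧸ Gamma0 N) := Subgroup.finite_quotient_of_finiteIndex
  refine finrank_parabolicHoms_add_le (Gamma0 N) ?_
  rw [Gamma0_mem]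
  simp

end Fermat.Agent.S21.helper83
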