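import Mathlib.NumberTheory.Modular
import Mathlib.LinearAlgebra.Matrix.SpecialLinearGroup

/-!
# Elements of `SL(2, ℤ)` of trace `±2` are conjugate to upper triangular matrices
-/

set_option autoImplicit false

namespace Fermat.Agent.S21

open scoped MatrixGroups
open Matrix

/-- An element of `SL(2, ℤ)` with `trace ^ 2 = 4` is conjugate in `SL(2, ℤ)` to an upper
triangular matrix. -/
theorem exists_conj_apply_one_zero_eq_zero (γ : SL(2, ℤ))
    (hγ : (γ : Matrix (Fin 2) (Fin 2) ℤ).trace ^ 2 = 4) :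
    ∃ δ : SL(2, ℤ), (δ⁻¹ * γ * δ) 1 0 = 0 := by
  by_cases hc : γ 1 0 = 0
  · exact ⟨1, by simpa using hc⟩
  -- trace is `2 * ε` with `ε = ± 1`
  have htr : (γ : Matrix (Fin 2) (Fin 2) ℤ).trace = γ 0 0 + γ 1 1 := Matrix.trace_fin_two _
  have hdet : γ 0 0 * γ 1 1 - γ 0 1 * γ 1 0 = 1 := by
    have := γ.det_coe
    rwa [Matrix.det_fin_two] at this
  obtain ⟨ε, hε, htε⟩ : ∃ ε : ℤ, ε ^ 2 = 1 ∧ γ 0 0 + γ 1 1 = 2 * ε := by
    rw [htr] at hγ
    have h4 : (γ 0 0 + γ 1 1) ^ 2 = 2 ^ 2 := by rw [hγ]; norm_num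
    rcases sq_eq_sq_iff_eq_or_eq_neg.mp h4 with h | h
    · exact ⟨1, by norm_num, by rw [h]; norm_num⟩
    · exact ⟨-1, by norm_num, by rw [h]; norm_num⟩
  set x : ℤ := γ 0 0 - ε with hx
  set c : ℤ := γ 1 0 with hcdef
  have hkey : x * x + γ 0 1 * c = 0 := by
    have h1 : γ 1 1 = 2 * ε - γ 0 0 := by linarith
    rw [hx]
    rw [h1] at hdet
    nlinarith [hε, hdet]
  -- divide by the gcd
  have hg : (Int.gcd x c : ℤ) ≠ 0 := by
    intro h
    have : Int.gcd x c = 0 := by exact_mod_cast h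
    exact hc (Int.gcd_eq_zero_iff.mp this).2
  obtain ⟨p, hp⟩ : (Int.gcd x c : ℤ) ∣ x := Int.gcd_dvd_left x c
  obtain ⟨q, hq⟩ : (Int.gcd x c : ℤ) ∣ c := Int.gcd_dvd_right x c
  have hcop : IsCoprime p q := by
    have h1 : Int.gcd x c ≠ 0 := by exact_mod_cast hg
    have h2 := Int.isCoprime_iff_gcd_eq_one.mpr
      (Int.gcd_div_gcd_div_gcd (i := x) (j := c) (Nat.pos_of_ne_zero h1))
    have h3 : x / (Int.gcd x c : ℤ) = p := Int.ediv_eq_of_eq_mul_right hg hp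
    have h4 : c / (Int.gcd x c : ℤ) = q := Int.ediv_eq_of_eq_mul_right hg hq
    rwa [h3, h4] at h2
  obtain ⟨δ, hδ0, hδ1⟩ := hcop.exists_SL2_col 0
  refine ⟨δ, ?_⟩
  -- eigenvector equations
  have e1 : γ 0 0 * p + γ 0 1 * q = ε * p := by
    have : (Int.gcd x c : ℤ) * (γ 0 0 * p + γ 0 1 * q) = (Int.gcd x c : ℤ) * (ε * p) := by
      have h1 : (Int.gcd x c : ℤ) * p = x := hp.symm
      have h2 : (Int.gcd x c : ℤ) * q = c := hq.symm
      have : γ 0 0 * x + γ 0 1 * c = ε * x := by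
        have : γ 0 0 = x + ε := by rw [hx]; ring
        rw [this]; linear_combination hkey
      calc (Int.gcd x c : ℤ) * (γ 0 0 * p + γ 0 1 * q)
          = γ 0 0 * ((Int.gcd x c : ℤ) * p) + γ 0 1 * ((Int.gcd x c : ℤ) * q) := by ring
        _ = ε * ((Int.gcd x c : ℤ) * p) := by rw [h1, h2, this]
        _ = (Int.gcd x c : ℤ) * (ε * p) := by ring
    exact mul_left_cancel₀ hg this
  have e2 : γ 1 0 * p + γ 1 1 * q = ε * q := by
    have : (Int.gcd x c : ℤ) * (γ 1 0 * p + γ 1 1 * q) = (Int.gcd x c : ℤ) * (ε * q) := by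
      have h1 : (Int.gcd x c : ℤ) * p = x := hp.symm
      have h2 : (Int.gcd x c : ℤ) * q = c := hq.symm
      have : γ 1 0 * x + γ 1 1 * c = ε * c := by
        have h3 : γ 1 1 = 2 * ε - γ 0 0 := by linarith
        rw [h3, hx]; ring
      calc (Int.gcd x c : ℤ) * (γ 1 0 * p + γ 1 1 * q)
          = γ 1 0 * ((Int.gcd x c : ℤ) * p) + γ 1 1 * ((Int.gcd x c : ℤ) * q) := by ring
        _ = ε * ((Int.gcd x c : ℤ) * q) := by rw [h1, h2, this]
        _ = (Int.gcd x c : ℤ) * (ε * q) := by ring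
    exact mul_left_cancel₀ hg this
  -- compute the entry
  have hinv : (δ⁻¹ : SL(2, ℤ)) 1 0 = - δ 1 0 ∧ (δ⁻¹ : SL(2, ℤ)) 1 1 = δ 0 0 := by
    rw [Matrix.SpecialLinearGroup.SL2_inv_expl]
    simp
  have hmul : (δ⁻¹ * γ * δ) 1 0 =
      (δ⁻¹ : SL(2, ℤ)) 1 0 * (γ 0 0 * δ 0 0 + γ 0 1 * δ 1 0) +
      (δ⁻¹ : SL(2, ℤ)) 1 1 * (γ 1 0 * δ 0 0 + γ 1 1 * δ 1 0) := by
    simp only [Matrix.SpecialLinearGroup.coe_mul, Matrix.mul_apply, Fin.sum_univ_two]
    ring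
  rw [hmul, hinv.1, hinv.2, hδ0, hδ1, e1, e2]
  ring

end Fermat.Agent.S21
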