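import Mathlib.NumberTheory.ModularForms.QExpansion
import Mathlib.Analysis.Complex.HasPrimitives
import Mathlib.Analysis.Complex.RemovableSingularity
import Mathlib.Analysis.Calculus.MeanValue
import Mathlib.Geometry.Manifold.Notation
import Mathlib.NumberTheory.ModularForms.Derivative
import Fermat.Prelude.Def_ModularCurve_PeriodMapBundled
import Fermat.Prelude.Thm_Subgroup_IsArithmetic_exists_nat_mem_strictPeriods_conj

/-!
# Primitives of periodic holomorphic functions on the upper half plane vanishing at `i∞`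
-/

set_option autoImplicit false

namespace Fermat.Agent.S21

open Filter Topology Complex Function Metric
open UpperHalfPlane hiding I
open scoped Manifold MatrixGroups ModularForm

/-- A holomorphic, `h`-periodic function on the upper half plane which tends to `0` at `i∞`
has a primitive which is `h`-periodic and tends to `0` at `i∞`. -/
theorem exists_primitive_of_periodic {f : ℍ → ℂ} {h : ℝ} (hh : 0 < h)
    (hper : Periodic (f ∘ ofComplex) h) (hol : MDiff f) (hzero : IsZeroAtImInfty f) :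
    ∃ F : ℍ → ℂ, (∀ τ : ℍ, HasDerivAt (F ∘ ofComplex) (f τ) ↑τ) ∧
      Tendsto F atImInfty (𝓝 0) ∧ Periodic (F ∘ ofComplex) h := by
  set φ : ℂ → ℂ := cuspFunction h f with hφ
  have hbdd : IsBoundedAtImInfty f := hzero.boundedAtFilter
  have hφdiff : DifferentiableOn ℂ φ (ball 0 1) :=
    differentiableOn_cuspFunction_ball hh hper hol hbdd
  have hφ0 : φ 0 = 0 := by
    have h1 := cuspFunction_apply_zero hh
      (analyticAt_cuspFunction_zero hh hper hol hbdd) hper
    rw [hφ, h1]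
    exact hzero.valueAtInfty_eq_zero
  -- the quotient φ(q)/q
  have hψdiff : DifferentiableOn ℂ (dslope φ 0) (ball 0 1) :=
    (differentiableOn_dslope (isOpen_ball.mem_nhds (mem_ball_self one_pos))).mpr hφdiff
  obtain ⟨G, hG0, hG⟩ := (hψdiff.isExactOn_ball).with_val_at 0 0
  have hq : ∀ z : ℂ, 0 < z.im → Periodic.qParam h z ∈ ball (0 : ℂ) 1 := fun z hz => by
    simpa using Periodic.norm_qParam_lt_one hh hz
  have hqderiv : ∀ z : ℂ, HasDerivAt (Periodic.qParam h)
      (Periodic.qParam h z * (2 * Real.pi * I / h)) z := fun z => by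
    have h1 : HasStrictDerivAt (Periodic.qParam h)
        (Periodic.qParam h z * (2 * Real.pi * I / h)) z := by
      simpa only [id_eq, mul_one] using! (((hasStrictDerivAt_id z).const_mul _).div_const _).cexp
    exact h1.hasDerivAt
  have hne : (2 * Real.pi * I : ℂ) ≠ 0 := two_pi_I_ne_zero
  have hhne : (h : ℂ) ≠ 0 := by exact_mod_cast hh.ne'
  let F₀ : ℂ → ℂ := fun z => (h / (2 * Real.pi * I)) * G (Periodic.qParam h z)
  have hF₀ : ∀ z : ℂ, 0 < z.im → HasDerivAt F₀ (f (ofComplex z)) z := by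
    intro z hz
    have h1 : HasDerivAt (fun z => G (Periodic.qParam h z))
        (dslope φ 0 (Periodic.qParam h z) * (Periodic.qParam h z * (2 * Real.pi * I / h))) z :=
      (hG _ (hq z hz)).comp z (hqderiv z)
    have h2 := h1.const_mul (h / (2 * Real.pi * I) : ℂ)
    have h3 : (h / (2 * Real.pi * I) : ℂ) *
        (dslope φ 0 (Periodic.qParam h z) * (Periodic.qParam h z * (2 * Real.pi * I / h)))
        = f (ofComplex z) := by
      have h4 : (Periodic.qParam h z - 0) • dslope φ 0 (Periodic.qParam h z)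
          = φ (Periodic.qParam h z) - φ 0 := sub_smul_dslope φ 0 _
      rw [sub_zero, hφ0, sub_zero, smul_eq_mul] at h4
      have h5 : φ (Periodic.qParam h z) = f (ofComplex z) := by
        have := eq_cuspFunction (f := f) ⟨z, hz⟩ hh.ne' hper
        simpa [ofComplex_apply_of_im_pos hz] using this
      rw [← h5, ← h4]
      field_simp
    rw [h3] at h2
    exact h2
  refine ⟨fun τ => F₀ τ, ?_, ?_, ?_⟩
  · intro τ
    have h1 := hF₀ τ τ.im_pos
    have h2 : ofComplex (τ : ℂ) = τ := ofComplex_apply τ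
    rw [h2] at h1
    refine h1.congr_of_eventuallyEq ?_
    filter_upwards [isOpen_upperHalfPlaneSet.mem_nhds τ.im_pos] with z hz
    simp [Function.comp, ofComplex_apply_of_im_pos hz]
  · have h1 : Tendsto (fun τ : ℍ => Periodic.qParam h τ) atImInfty (𝓝 0) :=
      qParam_tendsto_atImInfty hh
    have hGc : ContinuousAt G 0 := (hG 0 (mem_ball_self one_pos)).continuousAt
    have h2 : Tendsto (fun τ : ℍ => G (Periodic.qParam h τ)) atImInfty (𝓝 (G 0)) :=
      hGc.tendsto.comp h1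
    have h3 := h2.const_mul (h / (2 * Real.pi * I) : ℂ)
    rw [hG0, mul_zero] at h3
    exact h3
  · intro w
    by_cases hw : 0 < w.im
    · have hw' : 0 < (w + h).im := by simpa using hw
      simp only [Function.comp, ofComplex_apply_of_im_pos hw, ofComplex_apply_of_im_pos hw']
      show F₀ (w + h) = F₀ w
      simp only [F₀]
      congr 2
      simp only [Periodic.qParam]
      rw [show 2 * (Real.pi : ℂ) * I * (w + h) / h = 2 * Real.pi * I * w / h + 2 * Real.pi * I by
        field_simp]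
      rw [Complex.exp_add, Complex.exp_two_pi_mul_I, mul_one]
    · have hw' : (w + h).im ≤ 0 := by simpa using not_lt.mp hw
      simp [Function.comp, ofComplex_apply_of_im_nonpos hw',
        ofComplex_apply_of_im_nonpos (not_lt.mp hw)]


/-- Chain rule for the Möbius action: if `F` is a primitive of `f` then `F ∘ γ` is a primitive of
`f ∣[2] γ`. -/
theorem hasDerivAt_comp_smul {F f : ℍ → ℂ}
    (hF : ∀ τ : ℍ, HasDerivAt (F ∘ ofComplex) (f τ) ↑τ) (γ : SL(2, ℤ)) (τ : ℍ) :
    HasDerivAt ((fun w : ℍ => F (γ • w)) ∘ ofComplex) ((f ∣[(2 : ℤ)] γ) τ) ↑τ := by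
  set g : GL (Fin 2) ℝ := (γ : GL (Fin 2) ℝ) with hg
  have hdet : (g.val.det : ℝ) = 1 := by
    rw [← Matrix.GeneralLinearGroup.val_det_apply]; simp [hg]
  have hpos : 0 < g.val.det := by rw [hdet]; exact one_pos
  have h1 : HasDerivAt (fun z ↦ ↑(g • ofComplex z) : ℂ → ℂ)
      ((g.val.det : ℂ) / denom g τ ^ 2) ↑τ := (hasStrictDerivAt_smul hpos τ).hasDerivAt
  have h2 : HasDerivAt (F ∘ ofComplex) (f (g • τ)) ↑(g • ofComplex (τ : ℂ)) := by
    have := hF (g • τ)
    rwa [ofComplex_apply]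
  have h3 := h2.comp (τ : ℂ) h1
  have h4 : (f ∣[(2 : ℤ)] γ) τ = f (g • τ) * ((g.val.det : ℂ) / denom g τ ^ 2) := by
    rw [ModularForm.SL_slash_apply, hdet]
    have hd : denom g τ ≠ 0 := denom_ne_zero g τ
    simp only [hg, Complex.ofReal_one, zpow_neg, one_div]
    rfl
  rw [h4]
  refine h3.congr_of_eventuallyEq ?_
  filter_upwards [isOpen_upperHalfPlaneSet.mem_nhds τ.im_pos] with z hz
  simp only [Function.comp, ofComplex_apply]
  rfl


/-- A function on the upper half plane with vanishing derivative is constant. -/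
theorem exists_eq_const_of_hasDerivAt_zero {G : ℍ → ℂ}
    (hG : ∀ τ : ℍ, HasDerivAt (G ∘ ofComplex) 0 ↑τ) : ∃ c : ℂ, ∀ τ : ℍ, G τ = c := by
  have hs : IsOpen upperHalfPlaneSet := isOpen_upperHalfPlaneSet
  have hc : IsPreconnected upperHalfPlaneSet := (convex_halfSpace_im_gt 0).isPreconnected
  have hd : DifferentiableOn ℂ (G ∘ ofComplex) upperHalfPlaneSet := fun z hz =>
    (hG ⟨z, hz⟩).differentiableAt.differentiableWithinAt
  have hd0 : Set.EqOn (deriv (G ∘ ofComplex)) 0 upperHalfPlaneSet := fun z hz =>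
    (hG ⟨z, hz⟩).deriv
  obtain ⟨a, ha⟩ := hs.exists_is_const_of_deriv_eq_zero hc hd hd0
  refine ⟨a, fun τ => ?_⟩
  have := ha τ τ.im_pos
  simpa using this

/-- Two primitives of the same function differ by a constant. -/
theorem exists_eq_add_const_of_hasDerivAt {F₁ F₂ f : ℍ → ℂ}
    (h₁ : ∀ τ : ℍ, HasDerivAt (F₁ ∘ ofComplex) (f τ) ↑τ)
    (h₂ : ∀ τ : ℍ, HasDerivAt (F₂ ∘ ofComplex) (f τ) ↑τ) :
    ∃ c : ℂ, ∀ τ : ℍ, F₁ τ = F₂ τ + c := by
  have h : ∀ τ : ℍ, HasDerivAt ((fun w => F₁ w - F₂ w) ∘ ofComplex) 0 ↑τ := fun τ => by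
    have := (h₁ τ).sub (h₂ τ)
    rw [sub_self] at this
    exact this
  obtain ⟨c, hc⟩ := exists_eq_const_of_hasDerivAt_zero h
  exact ⟨c, fun τ => by have := hc τ; rw [← this]; ring⟩

/-- A primitive of a weight-2 `Γ`-invariant function is an equivariant primitive. -/
theorem isEquivariantPrimitive_of_slash_invariant {Γ : Subgroup SL(2, ℤ)} {F f : ℍ → ℂ}
    (hF : ∀ τ : ℍ, HasDerivAt (F ∘ ofComplex) (f τ) ↑τ)
    (hf : ∀ γ ∈ Γ, f ∣[(2 : ℤ)] γ = f) :
    ModularCurve.Period.IsEquivariantPrimitive Γ F := by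
  intro γ
  have h1 : ∀ τ : ℍ, HasDerivAt ((fun w : ℍ => F ((γ : SL(2, ℤ)) • w)) ∘ ofComplex) (f τ) ↑τ :=
    fun τ => by
      have := hasDerivAt_comp_smul hF (γ : SL(2, ℤ)) τ
      rwa [hf γ γ.2] at this
  obtain ⟨c, hc⟩ := exists_eq_add_const_of_hasDerivAt h1 hF
  exact ⟨c, fun z => by rw [hc z]; ring⟩

/-- Limits at the cusps of a primitive of a cusp form. -/
theorem exists_tendsto_comp_smul {F f : ℍ → ℂ}
    (hF : ∀ τ : ℍ, HasDerivAt (F ∘ ofComplex) (f τ) ↑τ) (δ : SL(2, ℤ)) {h : ℝ} (hh : 0 < h)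
    (hper : Periodic ((f ∣[(2 : ℤ)] δ) ∘ ofComplex) h) (hol : MDiff (f ∣[(2 : ℤ)] δ))
    (hzero : IsZeroAtImInfty (f ∣[(2 : ℤ)] δ)) :
    ∃ L : ℂ, Tendsto (fun w : ℍ => F (δ • w)) atImInfty (𝓝 L) := by
  obtain ⟨F', hF', hlim, -⟩ := exists_primitive_of_periodic hh hper hol hzero
  obtain ⟨c, hc⟩ := exists_eq_add_const_of_hasDerivAt (hasDerivAt_comp_smul hF δ) hF'
  refine ⟨c, ?_⟩
  have h1 : (fun w : ℍ => F (δ • w)) = fun w => F' w + c := funext hc
  rw [h1]
  simpa using hlim.add_const c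


section CuspForm

variable {Γ : Subgroup SL(2, ℤ)} [Γ.FiniteIndex]

/-- Translates of a cusp form by `SL(2, ℤ)` vanish at `i∞`. -/
theorem isZeroAtImInfty_slash (f : CuspForm Γ 2) (δ : SL(2, ℤ)) :
    IsZeroAtImInfty ((f : ℍ → ℂ) ∣[(2 : ℤ)] δ) := by
  have hc : IsCusp ((Matrix.SpecialLinearGroup.mapGL ℝ δ) • OnePoint.infty)
      (Γ.map (Matrix.SpecialLinearGroup.mapGL ℝ)) := by
    rw [Subgroup.IsArithmetic.isCusp_iff_isCusp_SL2Z, isCusp_SL2Z_iff']
    exact ⟨δ, rfl⟩
  exact (CuspFormClass.zero_at_cusps f hc) (Matrix.SpecialLinearGroup.mapGL ℝ δ) rfl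

/-- Translates of a cusp form by `SL(2, ℤ)` are holomorphic. -/
theorem mdifferentiable_slash (f : CuspForm Γ 2) (δ : SL(2, ℤ)) :
    MDiff ((f : ℍ → ℂ) ∣[(2 : ℤ)] δ) :=
  (CuspFormClass.holo f).slash 2 _

/-- Translates of a cusp form by `SL(2, ℤ)` are periodic with a common integral period. -/
theorem exists_periodic_slash (Γ : Subgroup SL(2, ℤ)) [Γ.FiniteIndex] :
    ∃ M : ℕ, 0 < M ∧ ∀ (f : CuspForm Γ 2) (δ : SL(2, ℤ)),
      Periodic (((f : ℍ → ℂ) ∣[(2 : ℤ)] δ) ∘ ofComplex) (M : ℝ) := by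
  obtain ⟨M, hM, hMp⟩ := Subgroup.IsArithmetic.exists_nat_mem_strictPeriods_conj
    (Γ.map (Matrix.SpecialLinearGroup.mapGL ℝ))
  refine ⟨M, hM, fun f δ => ?_⟩
  have h1 := hMp δ⁻¹
  have h2 := SlashInvariantFormClass.periodic_comp_ofComplex
    (CuspForm.translate f (Matrix.SpecialLinearGroup.mapGL ℝ δ)) (h := (M : ℝ))
    (by simpa using h1)
  exact h2

/-- Slash invariance of a cusp form under its level group, for `SL(2, ℤ)` elements. -/
theorem slash_eq_self (f : CuspForm Γ 2) (γ : SL(2, ℤ)) (hγ : γ ∈ Γ) :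
    (f : ℍ → ℂ) ∣[(2 : ℤ)] γ = f :=
  SlashInvariantForm.slash_action_eqn f (Matrix.SpecialLinearGroup.mapGL ℝ γ)
    (Subgroup.mem_map_of_mem _ hγ)

/-- Every weight two cusp form has a primitive which vanishes at `i∞`, is equivariant and has
limits at all cusps. -/
theorem exists_good_primitive (f : CuspForm Γ 2) :
    ∃ F : ℍ → ℂ, (∀ τ : ℍ, HasDerivAt (F ∘ ofComplex) (f τ) ↑τ) ∧
      Tendsto F atImInfty (𝓝 0) ∧
      ModularCurve.Period.IsEquivariantPrimitive Γ F ∧
      ∀ δ : SL(2, ℤ), ∃ L : ℂ, Tendsto (fun w : ℍ => F (δ • w)) atImInfty (𝓝 L) := by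
  obtain ⟨M, hM, hper⟩ := exists_periodic_slash Γ
  have hM' : (0 : ℝ) < M := by exact_mod_cast hM
  have h1 : (f : ℍ → ℂ) ∣[(2 : ℤ)] (1 : SL(2, ℤ)) = f := by
    rw [ModularForm.SL_slash]; simp
  have hper1 := hper f 1
  rw [h1] at hper1
  have hz1 := isZeroAtImInfty_slash f 1
  rw [h1] at hz1
  obtain ⟨F, hF, hlim, -⟩ := exists_primitive_of_periodic hM' hper1 (CuspFormClass.holo f) hz1
  refine ⟨F, hF, hlim, isEquivariantPrimitive_of_slash_invariant hF (slash_eq_self f), fun δ => ?_⟩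
  exact exists_tendsto_comp_smul hF δ hM' (hper f δ) (mdifferentiable_slash f δ)
    (isZeroAtImInfty_slash f δ)

end CuspForm

/-- Every weight two cusp form on `Γ₀(N)` has an equivariant primitive in the sense of the
prelude. -/
theorem exists_hasEquivariantPrimitive (N : ℕ) [NeZero N]
    (f : CuspForm (CongruenceSubgroup.Gamma0 N) 2) :
    ∃ F : ℍ → ℂ, ModularCurve.HasEquivariantPrimitive N f F :=
  exists_good_primitive f

end Fermat.Agent.S21
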