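import Mathlib.NumberTheory.ModularForms.QExpansion
import Mathlib.NumberTheory.ModularForms.LevelOne.Basic
import Mathlib.Analysis.Complex.AbsMax
import Mathlib.Analysis.InnerProductSpace.Calculus
import Mathlib.GroupTheory.Index
import Fermat.Agent.S21.Primitive

/-!
# A maximum principle on modular curves

A holomorphic function on the upper half plane whose real part is invariant under a finite index
subgroup of `SL(2, ℤ)` and which has limits at all cusps is constant.
-/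

set_option autoImplicit false

namespace Fermat.Agent.S21

open Filter Topology Complex Function Metric
open UpperHalfPlane hiding I
open scoped Manifold MatrixGroups ModularForm

/-- A common power of `T` lies in all conjugates of a finite index subgroup. -/
theorem exists_pos_conj_T_pow_mem (Γ : Subgroup SL(2, ℤ)) [Γ.FiniteIndex] :
    ∃ M : ℕ, 0 < M ∧ ∀ δ : SL(2, ℤ), δ * ModularGroup.T ^ M * δ⁻¹ ∈ Γ := by
  refine ⟨Γ.normalCore.index, Nat.pos_of_ne_zero Subgroup.index_ne_zero_of_finite, fun δ => ?_⟩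
  have h1 : ModularGroup.T ^ Γ.normalCore.index ∈ Γ.normalCore :=
    Subgroup.pow_index_mem _ _
  exact Subgroup.normalCore_le Γ ((Subgroup.normalCore_normal Γ).conj_mem _ h1 δ)

/-- Composition with the action of `SL(2, ℤ)` preserves holomorphy. -/
theorem mdifferentiable_comp_smul {A : ℍ → ℂ} (hA : MDiff A) (δ : SL(2, ℤ)) :
    MDiff (fun w : ℍ => A (δ • w)) := by
  have h := hA.slash 0 (δ : GL (Fin 2) ℝ)
  have h2 : (A ∣[(0 : ℤ)] (δ : GL (Fin 2) ℝ)) = fun w : ℍ => A (δ • w) := by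
    funext w
    have := ModularForm.SL_slash_apply (k := 0) A δ w
    rw [ModularForm.SL_slash] at this
    simpa using this
  rwa [h2] at h

/-- The exponential of a holomorphic function on `ℍ` is holomorphic. -/
theorem mdifferentiable_cexp {B : ℍ → ℂ} (hB : MDiff B) : MDiff (fun w : ℍ => cexp (B w)) := by
  rw [UpperHalfPlane.mdifferentiable_iff] at hB ⊢
  exact hB.cexp

/-- A holomorphic function on `ℍ` of constant modulus one which tends to `1` at `i∞` is `1`. -/
theorem eq_one_of_norm_eq_one {R : ℍ → ℂ} (hR : MDiff R) (hnorm : ∀ w, ‖R w‖ = 1)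
    (hlim : Tendsto R atImInfty (𝓝 1)) : ∀ w, R w = 1 := by
  have hd : DifferentiableOn ℂ (R ∘ ofComplex) upperHalfPlaneSet :=
    UpperHalfPlane.mdifferentiable_iff.mp hR
  have hs : IsOpen upperHalfPlaneSet := isOpen_upperHalfPlaneSet
  have hc : IsPreconnected upperHalfPlaneSet := (convex_halfSpace_im_gt 0).isPreconnected
  have hI : (UpperHalfPlane.I : ℂ) ∈ upperHalfPlaneSet := UpperHalfPlane.I.im_pos
  have hmax : IsMaxOn (norm ∘ (R ∘ ofComplex)) upperHalfPlaneSet (UpperHalfPlane.I : ℂ) := by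
    intro z hz
    show (norm ∘ (R ∘ ofComplex)) z ≤ (norm ∘ (R ∘ ofComplex)) (UpperHalfPlane.I : ℂ)
    simp only [Function.comp]
    rw [hnorm, hnorm]
  have hconst := Complex.eqOn_of_isPreconnected_of_isMaxOn_norm hc hs hd hI hmax
  have hconst' : ∀ w : ℍ, R w = R UpperHalfPlane.I := by
    intro w
    have := hconst w.im_pos
    simp only [Function.comp, Function.const, ofComplex_apply] at this
    exact this
  have h1 : Tendsto R atImInfty (𝓝 (R UpperHalfPlane.I)) := by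
    have : R = fun _ => R UpperHalfPlane.I := funext hconst'
    rw [this]
    exact tendsto_const_nhds
  have h2 : R UpperHalfPlane.I = 1 := tendsto_nhds_unique h1 hlim
  intro w
  rw [hconst' w, h2]


/-- The translation `w ↦ T ^ n • w` tends to `i∞` at `i∞`. -/
theorem tendsto_T_zpow_smul_atImInfty (n : ℤ) :
    Tendsto (fun w : ℍ => ModularGroup.T ^ n • w) atImInfty atImInfty := by
  rw [atImInfty, tendsto_comap_iff]
  have : (UpperHalfPlane.im ∘ fun w : ℍ => ModularGroup.T ^ n • w) = UpperHalfPlane.im := by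
    funext w
    exact ModularGroup.im_T_zpow_smul w n
  rw [this]
  exact tendsto_comap

/-- Invariance under `T ^ M` gives periodicity of the extension to `ℂ`. -/
theorem periodic_comp_ofComplex_of_T_pow {E : ℍ → ℂ} {M : ℕ}
    (h : ∀ w : ℍ, E (ModularGroup.T ^ M • w) = E w) :
    Periodic (E ∘ ofComplex) ((M : ℝ) : ℂ) := by
  intro z
  by_cases hz : 0 < z.im
  · have hz' : 0 < (z + ((M : ℝ) : ℂ)).im := by simpa using hz
    simp only [Function.comp, ofComplex_apply_of_im_pos hz, ofComplex_apply_of_im_pos hz']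
    rw [← h ⟨z, hz⟩]
    congr 1
    ext
    have := ModularGroup.coe_T_zpow_smul_eq (⟨z, hz⟩ : ℍ) (n := (M : ℤ))
    rw [zpow_natCast] at this
    rw [this]
    simp
  · have hz' : (z + ((M : ℝ) : ℂ)).im ≤ 0 := by simpa using not_lt.mp hz
    rw [Function.comp_apply, Function.comp_apply, ofComplex_apply_of_im_nonpos hz',
      ofComplex_apply_of_im_nonpos (not_lt.mp hz)]

section Main

variable {Γ : Subgroup SL(2, ℤ)} {A : ℍ → ℂ}

theorem cexp_comp_smul_T_pow (hA : MDiff A)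
    (hinv : ∀ γ ∈ Γ, ∀ z : ℍ, (A (γ • z)).re = (A z).re)
    (hlim : ∀ δ : SL(2, ℤ), ∃ L : ℂ, Tendsto (fun w : ℍ => A (δ • w)) atImInfty (𝓝 L))
    {M : ℕ} (hM : ∀ δ : SL(2, ℤ), δ * ModularGroup.T ^ M * δ⁻¹ ∈ Γ) (δ : SL(2, ℤ)) (w : ℍ) :
    cexp (A (δ • (ModularGroup.T ^ M • w))) = cexp (A (δ • w)) := by
  set R : ℍ → ℂ := fun w => cexp (A (δ • (ModularGroup.T ^ M • w)) - A (δ • w)) with hRdef
  have h1 : MDiff (fun w : ℍ => A (δ • (ModularGroup.T ^ M • w))) := by
    have := mdifferentiable_comp_smul hA (δ * ModularGroup.T ^ M)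
    simpa only [mul_smul] using this
  have h2 : MDiff (fun w : ℍ => A (δ • w)) := mdifferentiable_comp_smul hA δ
  have hR : MDiff R := mdifferentiable_cexp (h1.sub h2)
  have hnorm : ∀ w, ‖R w‖ = 1 := by
    intro w
    simp only [hRdef, Complex.norm_exp, Complex.sub_re]
    have h3 : δ • (ModularGroup.T ^ M • w) = (δ * ModularGroup.T ^ M * δ⁻¹) • (δ • w) := by
      rw [← mul_smul, ← mul_smul]
      congr 1
      group
    rw [h3, hinv _ (hM δ) (δ • w), sub_self, Real.exp_zero]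
  obtain ⟨L, hL⟩ := hlim δ
  have hlimR : Tendsto R atImInfty (𝓝 1) := by
    have h4 : Tendsto (fun w : ℍ => A (δ • (ModularGroup.T ^ M • w))) atImInfty (𝓝 L) := by
      have := hL.comp (tendsto_T_zpow_smul_atImInfty (M : ℤ))
      refine this.congr fun w => ?_
      simp only [Function.comp, zpow_natCast]
    have h5 := (h4.sub hL).cexp
    simpa only [sub_self, Complex.exp_zero] using h5
  have h6 := eq_one_of_norm_eq_one hR hnorm hlimR w
  simp only [hRdef, Complex.exp_sub] at h6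
  have hne : cexp (A (δ • w)) ≠ 0 := Complex.exp_ne_zero _
  field_simp at h6
  exact h6

variable [Γ.FiniteIndex]

/-- **Maximum principle.** A holomorphic function on the upper half plane whose real part is
invariant under a finite index subgroup of `SL(2, ℤ)` and which has limits at all cusps is
constant. -/
theorem exists_eq_const_of_re_invariant (hA : MDiff A)
    (hinv : ∀ γ ∈ Γ, ∀ z : ℍ, (A (γ • z)).re = (A z).re)
    (hlim : ∀ δ : SL(2, ℤ), ∃ L : ℂ, Tendsto (fun w : ℍ => A (δ • w)) atImInfty (𝓝 L)) :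
    ∃ c : ℂ, ∀ z : ℍ, A z = c := by
  classical
  obtain ⟨M, hMpos, hM⟩ := exists_pos_conj_T_pow_mem Γ
  have hM' : (0 : ℝ) < (M : ℝ) := by exact_mod_cast hMpos
  let _inst : Fintype (SL(2, ℤ) ⧸ Γ) := Fintype.ofFinite _
  -- the components
  set E : (SL(2, ℤ) ⧸ Γ) → ℍ → ℂ := fun x w => cexp (A ((Quotient.out x)⁻¹ • w)) with hE
  have hEdiff : ∀ x, MDiff (E x) := fun x =>
    mdifferentiable_cexp (mdifferentiable_comp_smul hA _)
  have hEper : ∀ x, Periodic (E x ∘ ofComplex) ((M : ℝ) : ℂ) := fun x =>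
    periodic_comp_ofComplex_of_T_pow (fun w => cexp_comp_smul_T_pow hA hinv hlim hM _ w)
  have hEbdd : ∀ x, IsBoundedAtImInfty (E x) := by
    intro x
    obtain ⟨L, hL⟩ := hlim (Quotient.out x)⁻¹
    have : Tendsto (E x) atImInfty (𝓝 (cexp L)) := hL.cexp
    exact this.isBigO_one ℝ
  -- norms depend only on the coset
  have hnormE : ∀ (g : SL(2, ℤ)) (w : ℍ),
      ‖E (g : SL(2, ℤ) ⧸ Γ) w‖ = Real.exp (A (g⁻¹ • w)).re := by
    intro g w
    simp only [hE, Complex.norm_exp]
    congr 1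
    have h1 : (Quotient.out (g : SL(2, ℤ) ⧸ Γ))⁻¹ * g ∈ Γ :=
      QuotientGroup.eq.mp (QuotientGroup.out_eq' (g : SL(2, ℤ) ⧸ Γ))
    have h2 : (Quotient.out (g : SL(2, ℤ) ⧸ Γ))⁻¹ • w
        = ((Quotient.out (g : SL(2, ℤ) ⧸ Γ))⁻¹ * g) • (g⁻¹ • w) := by
      rw [← mul_smul]
      congr 1
      group
    rw [h2, hinv _ h1]
  -- invariance of the total norm
  set Φ : ℍ → ℝ := fun w => ∑ x : SL(2, ℤ) ⧸ Γ, ‖E x w‖ ^ 2 with hΦ
  have hΦinv : ∀ (h : SL(2, ℤ)) (w : ℍ), Φ (h • w) = Φ w := by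
    intro h w
    simp only [hΦ]
    rw [← Equiv.sum_comp (MulAction.toPerm h) (fun x => ‖E x (h • w)‖ ^ 2)]
    refine Finset.sum_congr rfl fun x _ => ?_
    obtain ⟨g, rfl⟩ := QuotientGroup.mk_surjective x
    have h3 : (MulAction.toPerm h) (g : SL(2, ℤ) ⧸ Γ) = ((h * g : SL(2, ℤ)) : SL(2, ℤ) ⧸ Γ) := rfl
    rw [h3, hnormE, hnormE]
    congr 3
    rw [← mul_smul]
    congr 1
    group
  -- cusp functions
  set e : (SL(2, ℤ) ⧸ Γ) → ℂ → ℂ := fun x => cuspFunction (M : ℝ) (E x) with he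
  have hediff : ∀ x, DifferentiableOn ℂ (e x) (ball 0 1) := fun x =>
    differentiableOn_cuspFunction_ball hM' (hEper x) (hEdiff x) (hEbdd x)
  have heq : ∀ x (w : ℍ), e x (Periodic.qParam (M : ℝ) w) = E x w := fun x w =>
    eq_cuspFunction w hM'.ne' (hEper x)
  set V : ℂ → EuclideanSpace ℂ (SL(2, ℤ) ⧸ Γ) := fun q => WithLp.toLp 2 (fun x => e x q) with hV
  have hVdiff : DifferentiableOn ℂ V (ball 0 1) := by
    intro q hq
    refine DifferentiableAt.differentiableWithinAt ?_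
    rw [differentiableAt_euclidean]
    intro x
    exact (hediff x).differentiableAt (isOpen_ball.mem_nhds hq)
  have hVnorm : ∀ w : ℍ, ‖V (Periodic.qParam (M : ℝ) w)‖ ^ 2 = Φ w := by
    intro w
    rw [EuclideanSpace.norm_sq_eq]
    simp only [hV, hΦ, heq]
  -- the compact set
  set r : ℝ := Real.exp (-2 * Real.pi * (1 / 2) / M) with hr
  have hr0 : 0 < r := Real.exp_pos _
  have hr1 : r < 1 := by
    rw [hr, Real.exp_lt_one_iff]
    have : 0 < 2 * Real.pi * (1 / 2) / M := by positivity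
    have h2 : -2 * Real.pi * (1 / 2) / M = -(2 * Real.pi * (1 / 2) / M) := by ring
    rw [h2]
    linarith
  have hK : IsCompact (closedBall (0 : ℂ) r) := isCompact_closedBall 0 r
  have hKsub : closedBall (0 : ℂ) r ⊆ ball 0 1 := closedBall_subset_ball hr1
  have hKne : (closedBall (0 : ℂ) r).Nonempty := ⟨0, mem_closedBall_self hr0.le⟩
  obtain ⟨q₀, hq₀K, hq₀max⟩ := hK.exists_isMaxOn hKne
    ((hVdiff.continuousOn.mono hKsub).norm)
  -- points of `ℍ` with large imaginary part map into the compact set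
  have hmemK : ∀ w : ℍ, 1 / 2 ≤ w.im → Periodic.qParam (M : ℝ) w ∈ closedBall (0 : ℂ) r := by
    intro w hw
    rw [mem_closedBall_zero_iff, Periodic.norm_qParam, hr]
    apply Real.exp_le_exp.mpr
    have h1 : (w : ℂ).im = w.im := rfl
    rw [h1]
    have h3 : -2 * Real.pi * w.im / M = -(2 * Real.pi / M) * w.im := by ring
    have h4 : -2 * Real.pi * (1 / 2) / M = -(2 * Real.pi / M) * (1 / 2) := by ring
    rw [h3, h4]
    have h5 : 0 < 2 * Real.pi / M := by positivity
    nlinarith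
  -- the maximum over the compact set is a maximum over the whole disc
  have hmax : IsMaxOn (norm ∘ V) (ball 0 1) q₀ := by
    intro q hq
    show ‖V q‖ ≤ ‖V q₀‖
    by_cases hq0 : q = 0
    · subst hq0
      exact hq₀max (mem_closedBall_self hr0.le)
    · have hqn : ‖q‖ < 1 := by simpa using hq
      set w : ℍ := ⟨Periodic.invQParam (M : ℝ) q,
        Periodic.im_invQParam_pos_of_norm_lt_one hM' hqn hq0⟩ with hw
      have hqw : Periodic.qParam (M : ℝ) w = q := Periodic.qParam_right_inv hM'.ne' hq0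
      obtain ⟨γ, hγ⟩ := ModularGroup.exists_one_half_le_im_smul w
      have h1 : ‖V q‖ ^ 2 = ‖V (Periodic.qParam (M : ℝ) ((γ • w : ℍ) : ℂ))‖ ^ 2 := by
        rw [← hqw, hVnorm, hVnorm, hΦinv]
      have h2 : ‖V (Periodic.qParam (M : ℝ) ((γ • w : ℍ) : ℂ))‖ ≤ ‖V q₀‖ := hq₀max (hmemK _ hγ)
      have h3 : ‖V q‖ = ‖V (Periodic.qParam (M : ℝ) ((γ • w : ℍ) : ℂ))‖ := by
        have := congrArg Real.sqrt h1
        rwa [Real.sqrt_sq (norm_nonneg _), Real.sqrt_sq (norm_nonneg _)] at this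
      rw [h3]
      exact h2
  have hconst := Complex.eqOn_of_isPreconnected_of_isMaxOn_norm
    (convex_ball (0 : ℂ) 1).isPreconnected isOpen_ball hVdiff (hKsub hq₀K) hmax
  -- hence `exp ∘ A` is constant
  have hexp : ∀ w : ℍ, cexp (A w) = (V q₀).ofLp ((1 : SL(2, ℤ)) : SL(2, ℤ) ⧸ Γ) := by
    intro w
    set g₀ : SL(2, ℤ) := Quotient.out ((1 : SL(2, ℤ)) : SL(2, ℤ) ⧸ Γ) with hg₀
    have hq : Periodic.qParam (M : ℝ) ((g₀ • w : ℍ) : ℂ) ∈ ball (0 : ℂ) 1 := by
      simpa using Periodic.norm_qParam_lt_one hM' (g₀ • w).im_pos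
    have h1 := hconst hq
    have h2 : (V (Periodic.qParam (M : ℝ) ((g₀ • w : ℍ) : ℂ))).ofLp ((1 : SL(2, ℤ)) : SL(2, ℤ) ⧸ Γ)
        = (V q₀).ofLp ((1 : SL(2, ℤ)) : SL(2, ℤ) ⧸ Γ) := by
      rw [h1]; rfl
    rw [← h2]
    simp only [hV, heq, hE]
    rw [← mul_smul, inv_mul_cancel, one_smul]
  -- hence the derivative of `A` vanishes
  set c₀ := (V q₀).ofLp ((1 : SL(2, ℤ)) : SL(2, ℤ) ⧸ Γ) with hc₀
  have hderiv : ∀ τ : ℍ, HasDerivAt (A ∘ ofComplex) 0 ↑τ := by
    intro τ
    have hd : DifferentiableAt ℂ (A ∘ ofComplex) ↑τ :=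
      UpperHalfPlane.mdifferentiableAt_iff.mp (hA τ)
    have h1 := hd.hasDerivAt
    have h2 : HasDerivAt (fun z => cexp ((A ∘ ofComplex) z))
        (cexp ((A ∘ ofComplex) ↑τ) * deriv (A ∘ ofComplex) ↑τ) ↑τ := h1.cexp
    have h3 : (fun z => cexp ((A ∘ ofComplex) z)) =ᶠ[𝓝 (τ : ℂ)] fun _ => c₀ := by
      filter_upwards [isOpen_upperHalfPlaneSet.mem_nhds τ.im_pos] with z hz
      exact hexp _
    have h4 : HasDerivAt (fun _ : ℂ => c₀) (cexp ((A ∘ ofComplex) ↑τ) * deriv (A ∘ ofComplex) ↑τ)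
        ↑τ := h2.congr_of_eventuallyEq h3.symm
    have h5 := h4.unique (hasDerivAt_const (τ : ℂ) c₀)
    have h6 : deriv (A ∘ ofComplex) ↑τ = 0 := by
      rcases mul_eq_zero.mp h5 with h | h
      · exact absurd h (Complex.exp_ne_zero _)
      · exact h
    rw [h6] at h1
    exact h1
  exact exists_eq_const_of_hasDerivAt_zero hderiv

end Main

end Fermat.Agent.S21
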