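import Fermat.Agent.S21.Period
import Fermat.Agent.S21.MaxPrinciple

/-!
# Injectivity of the Eichler–Shimura period map
-/

set_option autoImplicit false

namespace Fermat.Agent.S21

open Filter Topology Complex Function CongruenceSubgroup ModularCurve ModularCurve.Period
open UpperHalfPlane hiding I
open scoped Manifold MatrixGroups ModularForm ComplexConjugate

/-- The antiholomorphic involution `z ↦ -conj z` of `ℍ` tends to `i∞` at `i∞`. -/
theorem tendsto_J_smul_atImInfty :
    Tendsto (fun w : ℍ => UpperHalfPlane.J • w) atImInfty atImInfty := by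
  rw [atImInfty, tendsto_comap_iff]
  have : (UpperHalfPlane.im ∘ fun w : ℍ => UpperHalfPlane.J • w) = UpperHalfPlane.im := by
    funext w
    show (UpperHalfPlane.J • w).im = w.im
    have h := UpperHalfPlane.coe_J_smul w
    have h2 : (UpperHalfPlane.J • w).im = ((UpperHalfPlane.J • w : ℍ) : ℂ).im := rfl
    rw [h2, h]
    simp
  rw [this]
  exact tendsto_comap

/-- Conjugation by `diag(1,-1)` intertwines the action on `ℍ` with `z ↦ -conj z`. -/
theorem jConjSL_smul_J_smul (γ : SL(2, ℤ)) (z : ℍ) :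
    (jConjSL γ) • (UpperHalfPlane.J • z) = UpperHalfPlane.J • (γ • z) := by
  ext
  rw [UpperHalfPlane.coe_J_smul, UpperHalfPlane.coe_specialLinearGroup_apply,
    UpperHalfPlane.coe_specialLinearGroup_apply, UpperHalfPlane.coe_J_smul]
  simp only [jConjSL_coe, jConjMat_apply_zero_zero, jConjMat_apply_zero_one,
    jConjMat_apply_one_zero, jConjMat_apply_one_one, map_div₀, map_add, map_mul, map_neg,
    algebraMap_int_eq, eq_intCast, Complex.conj_ofReal, Complex.ofReal_neg]
  have hd : (((γ 1 0 : ℤ) : ℝ) : ℂ) * conj (z : ℂ) + (((γ 1 1 : ℤ) : ℝ) : ℂ) ≠ 0 := by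
    have := UpperHalfPlane.denom_ne_zero (γ : GL (Fin 2) ℝ) z
    intro h
    apply this
    have h5 := congrArg conj h
    simp only [map_add, map_mul, Complex.conj_conj, Complex.conj_ofReal, map_zero] at h5
    simpa [UpperHalfPlane.denom] using h5
  have hd' : -(((γ 1 0 : ℤ) : ℝ) : ℂ) * -conj (z : ℂ) + (((γ 1 1 : ℤ) : ℝ) : ℂ) ≠ 0 := by
    rw [neg_mul_neg]; exact hd
  rw [eq_neg_iff_add_eq_zero, div_add_div _ _ hd' hd, div_eq_zero_iff]
  left
  ring

/-- The function `z ↦ conj (F (-conj z))`. -/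
noncomputable def conjJ (F : ℍ → ℂ) : ℍ → ℂ := fun z => conj (F (UpperHalfPlane.J • z))

theorem mdifferentiable_conjJ {F : ℍ → ℂ} (hF : MDiff F) : MDiff (conjJ F) := by
  have h := hF.slash 0 UpperHalfPlane.J
  have h2 : (F ∣[(0 : ℤ)] UpperHalfPlane.J) = conjJ F := by
    funext τ
    simp [ModularForm.slash_def, conjJ]
  rwa [h2] at h


variable (N : ℕ) [NeZero N]

/-- If the period homomorphism `p` of `f` satisfies `p + ε • (p ∘ j) = 0` with `ε = ±1`, then
`f = 0`. -/
theorem eq_zero_of_periodMap_add_charInvolution (f : CuspForm (Gamma0 N) 2) (ε : ℝ)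
    (hε : ε * ε = 1)
    (h : ∀ γ : Gamma0 N, periodMap N f (Additive.ofMul γ)
      + (ε : ℂ) * periodMap N f (Additive.ofMul (jConjGamma0 N γ)) = 0) : f = 0 := by
  obtain ⟨F, hF⟩ := exists_hasEquivariantPrimitive N f
  have hFd : MDiff F := by
    rw [UpperHalfPlane.mdifferentiable_iff]
    intro z hz
    exact ((hF.1 ⟨z, hz⟩).differentiableAt).differentiableWithinAt
  have hFJd : MDiff (conjJ F) := mdifferentiable_conjJ hFd
  set p : Gamma0 N → ℂ := fun γ => periodMap N f (Additive.ofMul γ) with hp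
  have hper : ∀ (γ : Gamma0 N) (z : ℍ), F ((γ : SL(2, ℤ)) • z) - F z = p γ := fun γ z =>
    (periodMap_apply N f hF γ z).symm
  have hperJ : ∀ (γ : Gamma0 N) (z : ℍ),
      conjJ F ((γ : SL(2, ℤ)) • z) - conjJ F z = conj (p (jConjGamma0 N γ)) := by
    intro γ z
    simp only [conjJ]
    rw [← map_sub, ← jConjSL_smul_J_smul]
    congr 1
    exact hper (jConjGamma0 N γ) (UpperHalfPlane.J • z)
  have hεc : (ε : ℂ) * (ε : ℂ) = 1 := by exact_mod_cast hε
  have hpj : ∀ γ : Gamma0 N, p (jConjGamma0 N γ) = -(ε : ℂ) * p γ := by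
    intro γ
    have h1 := h γ
    have h2 : (ε : ℂ) * (p γ + (ε : ℂ) * p (jConjGamma0 N γ)) = 0 := by
      rw [show p γ + (ε : ℂ) * p (jConjGamma0 N γ) = 0 from h1, mul_zero]
    have h3 : (ε : ℂ) * (p γ + (ε : ℂ) * p (jConjGamma0 N γ))
        = (ε : ℂ) * p γ + ((ε : ℂ) * (ε : ℂ)) * p (jConjGamma0 N γ) := by ring
    rw [h3, hεc, one_mul] at h2
    linear_combination h2
  -- limits at the cusps
  have hlimF : ∀ δ : SL(2, ℤ), ∃ L : ℂ, Tendsto (fun w : ℍ => F (δ • w)) atImInfty (𝓝 L) :=
    hF.2.2.2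
  have hlimFJ : ∀ δ : SL(2, ℤ), ∃ L : ℂ,
      Tendsto (fun w : ℍ => conjJ F (δ • w)) atImInfty (𝓝 L) := by
    intro δ
    obtain ⟨L, hL⟩ := hlimF (jConjSL δ)
    refine ⟨conj L, ?_⟩
    have h1 : Tendsto (fun w : ℍ => F (jConjSL δ • (UpperHalfPlane.J • w))) atImInfty (𝓝 L) :=
      hL.comp tendsto_J_smul_atImInfty
    have h2 : Tendsto (fun w : ℍ => conj (F (jConjSL δ • (UpperHalfPlane.J • w)))) atImInfty
        (𝓝 (conj L)) := (Complex.continuous_conj.tendsto L).comp h1
    refine h2.congr fun w => ?_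
    simp only [conjJ]
    rw [jConjSL_smul_J_smul]
  -- first function
  have hA₁ : ∃ c : ℂ, ∀ z : ℍ, F z + (ε : ℂ) * conjJ F z = c := by
    refine exists_eq_const_of_re_invariant (Γ := Gamma0 N)
      (hFd.add (mdifferentiable_const.mul hFJd)) ?_ ?_
    · intro γ hγ z
      have h1 := hper ⟨γ, hγ⟩ z
      have h2 := hperJ ⟨γ, hγ⟩ z
      have h3 := hpj ⟨γ, hγ⟩
      simp only at h1 h2
      have h4 : F (γ • z) + (ε : ℂ) * conjJ F (γ • z) - (F z + (ε : ℂ) * conjJ F z)
          = p ⟨γ, hγ⟩ - conj (p ⟨γ, hγ⟩) := by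
        have : F (γ • z) + (ε : ℂ) * conjJ F (γ • z) - (F z + (ε : ℂ) * conjJ F z)
            = (F (γ • z) - F z) + (ε : ℂ) * (conjJ F (γ • z) - conjJ F z) := by ring
        rw [this, h1, h2, h3, map_mul, map_neg, Complex.conj_ofReal]
        linear_combination (-(conj (p ⟨γ, hγ⟩))) * hεc
      have h5 := congrArg Complex.re h4
      simp only [Complex.sub_re, Complex.conj_re] at h5
      linarith
    · intro δ
      obtain ⟨L, hL⟩ := hlimF δ
      obtain ⟨L', hL'⟩ := hlimFJ δ
      exact ⟨L + (ε : ℂ) * L', hL.add (hL'.const_mul _)⟩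
  have hA₂ : ∃ c : ℂ, ∀ z : ℍ, Complex.I * (F z - (ε : ℂ) * conjJ F z) = c := by
    refine exists_eq_const_of_re_invariant (Γ := Gamma0 N)
      (mdifferentiable_const.mul (hFd.sub (mdifferentiable_const.mul hFJd))) ?_ ?_
    · intro γ hγ z
      have h1 := hper ⟨γ, hγ⟩ z
      have h2 := hperJ ⟨γ, hγ⟩ z
      have h3 := hpj ⟨γ, hγ⟩
      simp only at h1 h2
      have h4 : Complex.I * (F (γ • z) - (ε : ℂ) * conjJ F (γ • z))
          - Complex.I * (F z - (ε : ℂ) * conjJ F z)
          = Complex.I * (p ⟨γ, hγ⟩ + conj (p ⟨γ, hγ⟩)) := by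
        have : Complex.I * (F (γ • z) - (ε : ℂ) * conjJ F (γ • z))
            - Complex.I * (F z - (ε : ℂ) * conjJ F z)
            = Complex.I * ((F (γ • z) - F z) - (ε : ℂ) * (conjJ F (γ • z) - conjJ F z)) := by
          ring
        rw [this, h1, h2, h3, map_mul, map_neg, Complex.conj_ofReal]
        linear_combination (Complex.I * (conj (p ⟨γ, hγ⟩))) * hεc
      have h5 := congrArg Complex.re h4
      have h6 : ∀ x : ℂ, (Complex.I * x).re = -x.im := fun x => by simp
      rw [Complex.sub_re, h6, h6, h6] at h5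
      simp only [Complex.add_im, Complex.conj_im] at h5
      rw [h6, h6]
      linarith
    · intro δ
      obtain ⟨L, hL⟩ := hlimF δ
      obtain ⟨L', hL'⟩ := hlimFJ δ
      exact ⟨Complex.I * (L - (ε : ℂ) * L'), (hL.sub (hL'.const_mul _)).const_mul _⟩
  obtain ⟨c₁, hc₁⟩ := hA₁
  obtain ⟨c₂, hc₂⟩ := hA₂
  have hFconst : ∀ z : ℍ, F z = (c₁ - Complex.I * c₂) / 2 := by
    intro z
    have h1 := hc₁ z
    have h2 := hc₂ z
    have h3 : F z - (ε : ℂ) * conjJ F z = -Complex.I * c₂ := by
      rw [← h2, ← mul_assoc, neg_mul, Complex.I_mul_I]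
      ring
    have h4 : 2 * F z = c₁ - Complex.I * c₂ := by linear_combination h1 + h3
    rw [← h4]
    ring
  -- conclude
  ext τ
  have h1 := hF.1 τ
  have h2 : (F ∘ ofComplex) = fun _ => (c₁ - Complex.I * c₂) / 2 := by
    funext z
    exact hFconst _
  rw [h2] at h1
  have h3 := h1.unique (hasDerivAt_const (τ : ℂ) _)
  simpa using h3

/-- **Injectivity of the Eichler–Shimura period map.** -/
theorem periodHomPair_injective : Function.Injective (periodHomPair N) := by
  rw [injective_iff_map_eq_zero]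
  rintro ⟨f, g⟩ hfg
  rw [periodHomPair_eq, LinearMap.coprod_apply] at hfg
  simp only [LinearMap.comp_apply, LinearMap.add_apply, LinearMap.sub_apply, LinearMap.id_apply,
    periodMapLin_apply] at hfg
  -- apply the involution
  have hfg' := congrArg (charInvolution N ℂ ℂ) hfg
  simp only [map_add, map_sub, charInvolution_charInvolution, map_zero] at hfg'
  have hf : periodMap N f + charInvolution N ℂ ℂ (periodMap N f) = 0 := by
    have h2 : (2 : ℂ) • (periodMap N f + charInvolution N ℂ ℂ (periodMap N f)) = 0 := by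
      rw [two_smul]
      have := congrArg₂ (· + ·) hfg hfg'
      simp only [add_zero] at this
      rw [← this]
      abel
    exact (smul_eq_zero.mp h2).resolve_left two_ne_zero
  have hg : periodMap N g - charInvolution N ℂ ℂ (periodMap N g) = 0 := by
    have h2 : (2 : ℂ) • (periodMap N g - charInvolution N ℂ ℂ (periodMap N g)) = 0 := by
      rw [two_smul]
      have := congrArg₂ (· - ·) hfg hfg'
      simp only [sub_zero] at this
      rw [← this]
      abel
    exact (smul_eq_zero.mp h2).resolve_left two_ne_zero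
  have hf0 : f = 0 := by
    refine eq_zero_of_periodMap_add_charInvolution N f 1 (by norm_num) fun γ => ?_
    have := DFunLike.congr_fun hf (Additive.ofMul γ)
    simpa using this
  have hg0 : g = 0 := by
    refine eq_zero_of_periodMap_add_charInvolution N g (-1) (by norm_num) fun γ => ?_
    have := DFunLike.congr_fun hg (Additive.ofMul γ)
    simp only [AddMonoidHom.sub_apply, charInvolution_apply, toMul_ofMul,
      AddMonoidHom.zero_apply] at this
    push_cast
    linear_combination this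
  rw [hf0, hg0]
  rfl

end Fermat.Agent.S21
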