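import Fermat.Agent.S21.Primitive
import Fermat.Agent.S21.Parabolic
import Fermat.Prelude.Def_ModularCurve_PeriodHomPair

/-!
# The period map of level `Γ₀(N)`: linearity and parabolicity
-/

set_option autoImplicit false

namespace Fermat.Agent.S21

open Filter Topology Complex Function CongruenceSubgroup ModularCurve ModularCurve.Period
open UpperHalfPlane hiding I
open scoped Manifold MatrixGroups ModularForm

variable (N : ℕ)

/-- The period map evaluated through any equivariant primitive and any base point. -/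
theorem periodMap_apply (f : CuspForm (Gamma0 N) 2) {F : ℍ → ℂ}
    (hF : HasEquivariantPrimitive N f F) (γ : Gamma0 N) (z : ℍ) :
    periodMap N f (Additive.ofMul γ) = F ((γ : SL(2, ℤ)) • z) - F z := by
  obtain ⟨F₀, h₀, heq⟩ := periodMap_def N f hF
  rw [heq, IsEquivariantPrimitive.periodHom_apply, ← h₀.2.2.1.sub_eq_period γ z]
  obtain ⟨c, hc⟩ := exists_eq_add_const_of_hasDerivAt h₀.1 hF.1
  rw [hc, hc]
  ring

variable [NeZero N]

theorem periodMap_add (f g : CuspForm (Gamma0 N) 2) :
    periodMap N (f + g) = periodMap N f + periodMap N g := by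
  obtain ⟨F, hF⟩ := exists_hasEquivariantPrimitive N f
  obtain ⟨G, hG⟩ := exists_hasEquivariantPrimitive N g
  have hFG : HasEquivariantPrimitive N (f + g) (fun z => F z + G z) := by
    refine ⟨fun τ => ?_, ?_, ?_, fun δ => ?_⟩
    · exact (hF.1 τ).add (hG.1 τ)
    · simpa using hF.2.1.add hG.2.1
    · intro γ
      obtain ⟨c, hc⟩ := hF.2.2.1 γ
      obtain ⟨d, hd⟩ := hG.2.2.1 γ
      exact ⟨c + d, fun z => by rw [← hc z, ← hd z]; ring⟩
    · obtain ⟨L, hL⟩ := hF.2.2.2 δ
      obtain ⟨L', hL'⟩ := hG.2.2.2 δ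
      exact ⟨L + L', hL.add hL'⟩
  refine AddMonoidHom.ext fun γ => ?_
  obtain ⟨γ, rfl⟩ := Additive.ofMul.surjective γ
  rw [AddMonoidHom.add_apply, periodMap_apply N (f + g) hFG γ UpperHalfPlane.I,
    periodMap_apply N f hF γ UpperHalfPlane.I, periodMap_apply N g hG γ UpperHalfPlane.I]
  ring

theorem periodMap_smul (c : ℂ) (f : CuspForm (Gamma0 N) 2) :
    periodMap N (c • f) = c • periodMap N f := by
  obtain ⟨F, hF⟩ := exists_hasEquivariantPrimitive N f
  have hcF : HasEquivariantPrimitive N (c • f) (fun z => c * F z) := by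
    refine ⟨fun τ => ?_, ?_, ?_, fun δ => ?_⟩
    · exact (hF.1 τ).const_mul c
    · simpa using hF.2.1.const_mul c
    · intro γ
      obtain ⟨d, hd⟩ := hF.2.2.1 γ
      exact ⟨c * d, fun z => by rw [← hd z]; ring⟩
    · obtain ⟨L, hL⟩ := hF.2.2.2 δ
      exact ⟨c * L, hL.const_mul c⟩
  refine AddMonoidHom.ext fun γ => ?_
  obtain ⟨γ, rfl⟩ := Additive.ofMul.surjective γ
  rw [AddMonoidHom.smul_apply, periodMap_apply N (c • f) hcF γ UpperHalfPlane.I,
    periodMap_apply N f hF γ UpperHalfPlane.I, smul_eq_mul]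
  ring

/-- The period map as a linear map. -/
noncomputable def periodMapLin : CuspForm (Gamma0 N) 2 →ₗ[ℂ] (Additive (Gamma0 N) →+ ℂ) where
  toFun := periodMap N
  map_add' := periodMap_add N
  map_smul' := periodMap_smul N

@[simp] theorem periodMapLin_apply (f : CuspForm (Gamma0 N) 2) :
    periodMapLin N f = periodMap N f := rfl

theorem existsPeriodMapLinear : ExistsPeriodMapLinear N :=
  ⟨periodMapLin N, fun _ => rfl⟩

/-- Any linear map agreeing pointwise with the period map is `periodMapLin`. -/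
theorem eq_periodMapLin {pml : CuspForm (Gamma0 N) 2 →ₗ[ℂ] (Additive (Gamma0 N) →+ ℂ)}
    (h : ∀ f, pml f = periodMap N f) : pml = periodMapLin N :=
  LinearMap.ext h

theorem periodHomPair_eq :
    periodHomPair N = LinearMap.coprod
      ((LinearMap.id + charInvolution N ℂ ℂ) ∘ₗ periodMapLin N)
      ((LinearMap.id - charInvolution N ℂ ℂ) ∘ₗ periodMapLin N) := by
  obtain ⟨pml, hpml, h⟩ := periodHomPair_def N (existsPeriodMapLinear N)
  rw [h, eq_periodMapLin N hpml]

/-- Periods vanish on elements of trace `±2`. -/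
theorem periodMap_mem_parabolicHoms (f : CuspForm (Gamma0 N) 2) :
    periodMap N f ∈ parabolicHoms ℂ (Gamma0 N) ℂ := by
  rw [mem_parabolicHoms_iff]
  intro γ hγ
  obtain ⟨F, hF⟩ := exists_hasEquivariantPrimitive N f
  obtain ⟨δ, hδ⟩ := exists_conj_apply_one_zero_eq_zero (γ : SL(2, ℤ)) hγ
  obtain ⟨n, hn⟩ := ModularGroup.exists_eq_T_zpow_of_c_eq_zero hδ
  obtain ⟨L, hL⟩ := hF.2.2.2 δ
  -- the period is the constant value of `F (γ δ w) - F (δ w) = F (δ (w + n)) - F (δ w)`
  have h1 : ∀ w : ℍ, periodMap N f (Additive.ofMul γ)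
      = F (δ • (ModularGroup.T ^ n • w)) - F (δ • w) := by
    intro w
    rw [periodMap_apply N f hF γ (δ • w), ← hn w]
    congr 2
    rw [← mul_smul, ← mul_smul]
    congr 1
    group
  have h2 : Tendsto (fun w : ℍ => ModularGroup.T ^ n • w) atImInfty atImInfty := by
    rw [atImInfty, tendsto_comap_iff]
    have : (UpperHalfPlane.im ∘ fun w : ℍ => ModularGroup.T ^ n • w) = UpperHalfPlane.im := by
      funext w
      exact ModularGroup.im_T_zpow_smul w n
    rw [this]
    exact tendsto_comap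
  have h3 : Tendsto (fun w : ℍ => F (δ • (ModularGroup.T ^ n • w)) - F (δ • w)) atImInfty
      (𝓝 (L - L)) := (hL.comp h2).sub hL
  have h4 : Tendsto (fun _ : ℍ => periodMap N f (Additive.ofMul γ)) atImInfty (𝓝 (L - L)) :=
    h3.congr fun w => (h1 w).symm
  rw [sub_self] at h4
  exact tendsto_nhds_unique tendsto_const_nhds h4

theorem range_periodHomPair_le :
    LinearMap.range (periodHomPair N) ≤ parabolicHoms ℂ (Gamma0 N) ℂ := by
  rw [periodHomPair_eq]
  rintro _ ⟨⟨f, g⟩, rfl⟩
  rw [LinearMap.coprod_apply]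
  refine Submodule.add_mem _ ?_ ?_
  · simp only [LinearMap.comp_apply, LinearMap.add_apply, LinearMap.id_apply, periodMapLin_apply]
    exact Submodule.add_mem _ (periodMap_mem_parabolicHoms N f)
      (charInvolution_mem_parabolicHoms N ℂ ℂ (periodMap_mem_parabolicHoms N f))
  · simp only [LinearMap.comp_apply, LinearMap.sub_apply, LinearMap.id_apply, periodMapLin_apply]
    exact Submodule.sub_mem _ (periodMap_mem_parabolicHoms N g)
      (charInvolution_mem_parabolicHoms N ℂ ℂ (periodMap_mem_parabolicHoms N g))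

end Fermat.Agent.S21
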