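import Fermat.Agent.S21.Injective
import Fermat.Agent.S21.helper83_ParabolicBound

/-!
# S21 / S20 fast lane: the upper bound `dim S₂(Γ₀(N)) ≤ g` and the reduction of S21 to the
lower bound

With `μ = |SL₂(ℤ)/Γ₀(N)|` and `oS, oST, oT` the numbers of orbits of `S`, `S*T`, `T` on the
coset space:

* `two_mul_finrank_cuspForm_add_le` : `2 * dim S₂ + oS + oST + oT ≤ μ + 2`
  (injectivity of the period map + the group-theoretic bound for parabolic cohomology);
* `result_of_lower_bound` : the Eichler–Shimura statement S21 follows from the reverse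
  inequality `μ + 2 ≤ 2 * dim S₂ + oS + oST + oT`.
-/

set_option autoImplicit false

open ModularCurve ModularCurve.Period CongruenceSubgroup
open scoped MatrixGroups

namespace Fermat.Agent.S21

variable (N : ℕ) [NeZero N]

/-- Number of orbits of the cyclic group generated by `g` on `SL(2,ℤ) ⧸ Γ₀(N)`. -/
noncomputable abbrev orbCount (N : ℕ) (g : SL(2, ℤ)) : ℕ :=
  Nat.card (MulAction.orbitRel.Quotient (Subgroup.zpowers g) (SL(2, ℤ) ⧸ Gamma0 N))

/-- The period map, corestricted to parabolic homomorphisms. -/
noncomputable def periodHomPairPar :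
    (CuspForm (Gamma0 N) 2 × CuspForm (Gamma0 N) 2) →ₗ[ℂ] parabolicHoms ℂ (Gamma0 N) ℂ :=
  (periodHomPair N).codRestrict _ fun x =>
    range_periodHomPair_le N (LinearMap.mem_range_self _ x)

theorem periodHomPairPar_injective : Function.Injective (periodHomPairPar N) := by
  intro x y h
  apply periodHomPair_injective N
  have := congrArg Subtype.val h
  simpa [periodHomPairPar] using this

theorem finite_parabolicHoms : Module.Finite ℂ (parabolicHoms ℂ (Gamma0 N) ℂ) :=
  (helper83.finrank_parabolicHoms_Gamma0_add_le N).1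

theorem finite_cuspForm_prod :
    Module.Finite ℂ (CuspForm (Gamma0 N) 2 × CuspForm (Gamma0 N) 2) := by
  have := finite_parabolicHoms N
  exact Module.Finite.of_injective (periodHomPairPar N) (periodHomPairPar_injective N)

theorem finite_cuspForm_two : Module.Finite ℂ (CuspForm (Gamma0 N) 2) := by
  have := finite_cuspForm_prod N
  exact Module.Finite.of_injective
    (LinearMap.inl ℂ (CuspForm (Gamma0 N) 2) (CuspForm (Gamma0 N) 2)) LinearMap.inl_injective

theorem finrank_cuspForm_prod :
    Module.finrank ℂ (CuspForm (Gamma0 N) 2 × CuspForm (Gamma0 N) 2)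
      = 2 * Module.finrank ℂ (CuspForm (Gamma0 N) 2) := by
  have := finite_cuspForm_two N
  rw [Module.finrank_prod, two_mul]

theorem two_mul_finrank_cuspForm_le :
    2 * Module.finrank ℂ (CuspForm (Gamma0 N) 2)
      ≤ Module.finrank ℂ (parabolicHoms ℂ (Gamma0 N) ℂ) := by
  have := finite_parabolicHoms N
  rw [← finrank_cuspForm_prod]
  exact LinearMap.finrank_le_finrank_of_injective (periodHomPairPar_injective N)

/-- **Upper bound** `dim S₂(Γ₀(N)) ≤ g`, in orbit-count form. -/
theorem two_mul_finrank_cuspForm_add_le :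
    2 * Module.finrank ℂ (CuspForm (Gamma0 N) 2)
      + orbCount N ModularGroup.S + orbCount N (ModularGroup.S * ModularGroup.T)
      + orbCount N ModularGroup.T
      ≤ Nat.card (SL(2, ℤ) ⧸ Gamma0 N) + 2 := by
  have h1 := two_mul_finrank_cuspForm_le N
  have h2 := (helper83.finrank_parabolicHoms_Gamma0_add_le N).2
  unfold orbCount
  omega

/-- S21 follows from the lower bound `dim H¹_par ≤ 2 dim S₂`. -/
theorem result_of_finrank_le
    (h : Module.finrank ℂ (parabolicHoms ℂ (Gamma0 N) ℂ)
      ≤ 2 * Module.finrank ℂ (CuspForm (Gamma0 N) 2)) :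
    Function.Injective (periodHomPair N)
      ∧ LinearMap.range (periodHomPair N) = parabolicHoms ℂ (Gamma0 N) ℂ := by
  refine ⟨periodHomPair_injective N, ?_⟩
  have := finite_parabolicHoms N
  have := finite_cuspForm_prod N
  refine Submodule.eq_of_le_of_finrank_le (range_periodHomPair_le N) ?_
  rw [LinearMap.finrank_range_of_inj (periodHomPair_injective N), finrank_cuspForm_prod]
  exact h

/-- S21 follows from the lower bound `g ≤ dim S₂(Γ₀(N))`, in orbit-count form. -/
theorem result_of_lower_bound
    (hLB : Nat.card (SL(2, ℤ) ⧸ Gamma0 N) + 2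
      ≤ 2 * Module.finrank ℂ (CuspForm (Gamma0 N) 2)
        + orbCount N ModularGroup.S + orbCount N (ModularGroup.S * ModularGroup.T)
        + orbCount N ModularGroup.T) :
    Function.Injective (periodHomPair N)
      ∧ LinearMap.range (periodHomPair N) = parabolicHoms ℂ (Gamma0 N) ℂ := by
  apply result_of_finrank_le
  have h2 := (helper83.finrank_parabolicHoms_Gamma0_add_le N).2
  unfold orbCount at hLB
  omega

/-- Given the lower bound, `2 * dim S₂ + oS + oST + oT = μ + 2`. -/
theorem two_mul_finrank_cuspForm_add_eq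
    (hLB : Nat.card (SL(2, ℤ) ⧸ Gamma0 N) + 2
      ≤ 2 * Module.finrank ℂ (CuspForm (Gamma0 N) 2)
        + orbCount N ModularGroup.S + orbCount N (ModularGroup.S * ModularGroup.T)
        + orbCount N ModularGroup.T) :
    2 * Module.finrank ℂ (CuspForm (Gamma0 N) 2)
      + orbCount N ModularGroup.S + orbCount N (ModularGroup.S * ModularGroup.T)
      + orbCount N ModularGroup.T
      = Nat.card (SL(2, ℤ) ⧸ Gamma0 N) + 2 :=
  le_antisymm (two_mul_finrank_cuspForm_add_le N) hLB

end Fermat.Agent.S21
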