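import Mathlib
import Fermat.Prelude.Def_ModularCurve_PeriodMap

namespace Fermat.Agent.S21.helper71

open scoped MatrixGroups
open MulAction Subgroup ModularCurve.Period

section Potential

variable (Γ : Subgroup SL(2, ℤ))

/-- The element `s(gΓ)⁻¹ * g` of `Γ`. -/
noncomputable def kap (g : SL(2, ℤ)) : Γ :=
  ⟨((g : SL(2, ℤ) ⧸ Γ).out)⁻¹ * g, QuotientGroup.eq.mp (QuotientGroup.out_eq' _)⟩

theorem kap_mul_right (g : SL(2, ℤ)) (γ : Γ) : kap Γ (g * γ) = kap Γ g * γ := by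
  have h : ((g * (γ : SL(2, ℤ)) : SL(2, ℤ)) : SL(2, ℤ) ⧸ Γ) = (g : SL(2, ℤ) ⧸ Γ) :=
    QuotientGroup.mk_mul_of_mem g γ.2
  apply Subtype.ext
  simp only [kap, Subgroup.coe_mul, h, mul_assoc]

theorem out_mul_kap (g : SL(2, ℤ)) : ((g : SL(2, ℤ) ⧸ Γ).out) * (kap Γ g : SL(2, ℤ)) = g := by
  simp [kap]

/-- The potential attached to a pair `(φ, v)`. -/
noncomputable def pot :
    (parabolicHoms ℂ Γ ℂ × ((SL(2, ℤ) ⧸ Γ) → ℂ)) →ₗ[ℂ] (SL(2, ℤ) → ℂ) where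
  toFun p g := p.1.1 (Additive.ofMul (kap Γ g)) + p.2 (g : SL(2, ℤ) ⧸ Γ)
  map_add' p q := by
    ext g
    simp only [Prod.fst_add, Prod.snd_add, Submodule.coe_add, AddMonoidHom.add_apply,
      Pi.add_apply]
    ring
  map_smul' c p := by
    ext g
    simp only [Prod.smul_fst, Prod.smul_snd, Submodule.coe_smul, AddMonoidHom.smul_apply,
      Pi.smul_apply, RingHom.id_apply, smul_eq_mul]
    ring

theorem pot_apply (p : parabolicHoms ℂ Γ ℂ × ((SL(2, ℤ) ⧸ Γ) → ℂ)) (g : SL(2, ℤ)) :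
    pot Γ p g = p.1.1 (Additive.ofMul (kap Γ g)) + p.2 (g : SL(2, ℤ) ⧸ Γ) := rfl

theorem pot_mul_right (p : parabolicHoms ℂ Γ ℂ × ((SL(2, ℤ) ⧸ Γ) → ℂ)) (g : SL(2, ℤ)) (γ : Γ) :
    pot Γ p (g * γ) = pot Γ p g + p.1.1 (Additive.ofMul γ) := by
  have h : ((g * (γ : SL(2, ℤ)) : SL(2, ℤ)) : SL(2, ℤ) ⧸ Γ) = (g : SL(2, ℤ) ⧸ Γ) :=
    QuotientGroup.mk_mul_of_mem g γ.2
  rw [pot_apply, pot_apply, kap_mul_right, h, ofMul_mul, map_add]
  ring

/-- The difference operator `D_g F (x) = F (g * s x) - F (s x)`. -/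
noncomputable def dif (g : SL(2, ℤ)) : (SL(2, ℤ) → ℂ) →ₗ[ℂ] ((SL(2, ℤ) ⧸ Γ) → ℂ) where
  toFun F x := F (g * x.out) - F x.out
  map_add' F F' := by
    ext x
    simp only [Pi.add_apply]
    ring
  map_smul' c F := by
    ext x
    simp only [Pi.smul_apply, RingHom.id_apply, smul_eq_mul]
    ring

theorem dif_apply (g : SL(2, ℤ)) (F : SL(2, ℤ) → ℂ) (x : SL(2, ℤ) ⧸ Γ) :
    dif Γ g F x = F (g * x.out) - F x.out := rfl

theorem dif_pot_mk (p : parabolicHoms ℂ Γ ℂ × ((SL(2, ℤ) ⧸ Γ) → ℂ)) (g h : SL(2, ℤ)) :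
    dif Γ g (pot Γ p) (h : SL(2, ℤ) ⧸ Γ) = pot Γ p (g * h) - pot Γ p h := by
  have e := out_mul_kap Γ h
  have e1 : pot Γ p h = pot Γ p ((h : SL(2, ℤ) ⧸ Γ).out) + p.1.1 (Additive.ofMul (kap Γ h)) := by
    rw [← pot_mul_right, e]
  have e2 : pot Γ p (g * h)
      = pot Γ p (g * (h : SL(2, ℤ) ⧸ Γ).out) + p.1.1 (Additive.ofMul (kap Γ h)) := by
    rw [← pot_mul_right, mul_assoc, e]
  rw [dif_apply, e1, e2]
  ring

end Potential


section Telescoping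

variable (Γ : Subgroup SL(2, ℤ))

theorem trace_conj (g h : SL(2, ℤ)) :
    ((h⁻¹ * g * h : SL(2, ℤ)) : Matrix (Fin 2) (Fin 2) ℤ).trace
      = (g : Matrix (Fin 2) (Fin 2) ℤ).trace := by
  have h1 : ((h⁻¹ * g * h : SL(2, ℤ)) : Matrix (Fin 2) (Fin 2) ℤ)
      = ((h⁻¹ * g : SL(2, ℤ)) : Matrix (Fin 2) (Fin 2) ℤ) * (h : Matrix (Fin 2) (Fin 2) ℤ) := by
    simp
  have h2 : (h : Matrix (Fin 2) (Fin 2) ℤ) * ((h⁻¹ * g : SL(2, ℤ)) : Matrix (Fin 2) (Fin 2) ℤ)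
      = (g : Matrix (Fin 2) (Fin 2) ℤ) := by
    rw [← Matrix.SpecialLinearGroup.coe_mul, mul_inv_cancel_left]
  rw [h1, Matrix.trace_mul_comm, h2]

theorem sum_dif_pot (p : parabolicHoms ℂ Γ ℂ × ((SL(2, ℤ) ⧸ Γ) → ℂ)) (g : SL(2, ℤ)) (n : ℕ)
    (x : SL(2, ℤ) ⧸ Γ) :
    ∑ k ∈ Finset.range n, dif Γ g (pot Γ p) (g ^ k • x)
      = pot Γ p (g ^ n * x.out) - pot Γ p x.out := by
  have hx : ∀ k : ℕ, g ^ k • x = ((g ^ k * x.out : SL(2, ℤ)) : SL(2, ℤ) ⧸ Γ) := by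
    intro k
    conv_lhs => rw [← QuotientGroup.out_eq' x]
    rfl
  have hk : ∀ k : ℕ, dif Γ g (pot Γ p) (g ^ k • x)
      = pot Γ p (g ^ (k + 1) * x.out) - pot Γ p (g ^ k * x.out) := by
    intro k
    rw [hx k, dif_pot_mk, ← mul_assoc, ← pow_succ']
  simp only [hk]
  rw [Finset.sum_range_sub (fun k => pot Γ p (g ^ k * x.out)) n]
  simp

theorem sum_dif_pot_eq_zero (p : parabolicHoms ℂ Γ ℂ × ((SL(2, ℤ) ⧸ Γ) → ℂ)) (g : SL(2, ℤ))
    (n : ℕ) (hfix : ∀ x : SL(2, ℤ) ⧸ Γ, g ^ n • x = x)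
    (htr : ((g ^ n : SL(2, ℤ)) : Matrix (Fin 2) (Fin 2) ℤ).trace ^ 2 = 4)
    (x : SL(2, ℤ) ⧸ Γ) :
    ∑ k ∈ Finset.range n, dif Γ g (pot Γ p) (g ^ k • x) = 0 := by
  rw [sum_dif_pot]
  have hmem : (x.out)⁻¹ * g ^ n * x.out ∈ Γ := by
    have h1 : ((g ^ n * x.out : SL(2, ℤ)) : SL(2, ℤ) ⧸ Γ) = (x.out : SL(2, ℤ) ⧸ Γ) := by
      have := hfix x
      conv_lhs at this => rw [← QuotientGroup.out_eq' x]
      conv_rhs at this => rw [← QuotientGroup.out_eq' x]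
      exact this
    have h2 := QuotientGroup.eq.mp h1.symm
    rwa [← mul_assoc] at h2
  have hpar : p.1.1 (Additive.ofMul (⟨_, hmem⟩ : Γ)) = 0 := by
    apply p.1.2
    show (((x.out)⁻¹ * g ^ n * x.out : SL(2, ℤ)) : Matrix (Fin 2) (Fin 2) ℤ).trace ^ 2 = 4
    rw [trace_conj]
    exact htr
  have h3 : g ^ n * x.out = x.out * ((⟨_, hmem⟩ : Γ) : SL(2, ℤ)) := by
    simp [mul_assoc]
  rw [h3, pot_mul_right, hpar]
  ring

end Telescoping

section Orthogonality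

variable (Γ : Subgroup SL(2, ℤ)) [Fintype (SL(2, ℤ) ⧸ Γ)]

theorem sum_mul_dif_pot_eq_zero (p : parabolicHoms ℂ Γ ℂ × ((SL(2, ℤ) ⧸ Γ) → ℂ)) (g : SL(2, ℤ))
    (n : ℕ) (hn : 0 < n) (hfix : ∀ x : SL(2, ℤ) ⧸ Γ, g ^ n • x = x)
    (htr : ((g ^ n : SL(2, ℤ)) : Matrix (Fin 2) (Fin 2) ℤ).trace ^ 2 = 4)
    (μ : (SL(2, ℤ) ⧸ Γ) → ℂ) (hμ : ∀ x, μ (g • x) = μ x) :
    ∑ x, μ x * dif Γ g (pot Γ p) x = 0 := by
  have hμk : ∀ (k : ℕ) (x : SL(2, ℤ) ⧸ Γ), μ (g ^ k • x) = μ x := by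
    intro k
    induction k with
    | zero => intro x; simp
    | succ k ih => intro x; rw [pow_succ', mul_smul, hμ, ih]
  have hk : ∀ k : ℕ, ∑ x, μ x * dif Γ g (pot Γ p) x
      = ∑ x, μ x * dif Γ g (pot Γ p) (g ^ k • x) := by
    intro k
    rw [← Equiv.sum_comp (MulAction.toPerm (g ^ k))
      (fun x => μ x * dif Γ g (pot Γ p) x)]
    refine Finset.sum_congr rfl (fun x _ => ?_)
    simp only [MulAction.toPerm_apply, hμk]
  have hsum : (n : ℂ) * ∑ x, μ x * dif Γ g (pot Γ p) x = 0 := by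
    have : (n : ℂ) * ∑ x, μ x * dif Γ g (pot Γ p) x
        = ∑ k ∈ Finset.range n, ∑ x, μ x * dif Γ g (pot Γ p) (g ^ k • x) := by
      rw [← Finset.sum_congr rfl (fun k _ => hk k)]
      simp
    rw [this, Finset.sum_comm]
    refine Finset.sum_eq_zero (fun x _ => ?_)
    rw [← Finset.mul_sum, sum_dif_pot_eq_zero Γ p g n hfix htr x, mul_zero]
  rcases mul_eq_zero.mp hsum with h | h
  · exact absurd (Nat.cast_eq_zero.mp h) (Nat.pos_iff_ne_zero.mp hn)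
  · exact h

end Orthogonality


section Generators

variable (Γ : Subgroup SL(2, ℤ))

theorem S_pow_two : (ModularGroup.S ^ 2 : SL(2, ℤ)) = -1 := by decide

theorem ST_pow_three : ((ModularGroup.S * ModularGroup.T) ^ 3 : SL(2, ℤ)) = -1 := by decide

theorem trace_neg_one_sq : ((-1 : SL(2, ℤ)) : Matrix (Fin 2) (Fin 2) ℤ).trace ^ 2 = 4 := by
  simp

theorem trace_T_pow_sq (n : ℕ) :
    ((ModularGroup.T ^ n : SL(2, ℤ)) : Matrix (Fin 2) (Fin 2) ℤ).trace ^ 2 = 4 := by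
  have := ModularGroup.coe_T_zpow (n : ℤ)
  rw [zpow_natCast] at this
  rw [this]
  simp

theorem neg_one_smul_quot (hneg : (-1 : SL(2, ℤ)) ∈ Γ) (x : SL(2, ℤ) ⧸ Γ) :
    (-1 : SL(2, ℤ)) • x = x := by
  induction x using QuotientGroup.induction_on with
  | H h =>
    have h1 : (-1 : SL(2, ℤ)) * h = h * (-1) := by
      ext i j
      simp
    show (((-1 : SL(2, ℤ)) * h : SL(2, ℤ)) : SL(2, ℤ) ⧸ Γ) = (h : SL(2, ℤ) ⧸ Γ)
    rw [h1]
    exact QuotientGroup.mk_mul_of_mem h hneg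

/-- A function invariant under `S` and `T` is invariant under all of `SL(2, ℤ)`. -/
theorem invariant_of_S_T {Y : Type*} [MulAction SL(2, ℤ) Y] {Z : Type*} (f : Y → Z)
    (hS : ∀ y, f (ModularGroup.S • y) = f y) (hT : ∀ y, f (ModularGroup.T • y) = f y)
    (g : SL(2, ℤ)) (y : Y) : f (g • y) = f y := by
  have hg : g ∈ Subgroup.closure ({ModularGroup.S, ModularGroup.T} : Set SL(2, ℤ)) := by
    rw [SpecialLinearGroup.SL2Z_generators]
    exact mem_top g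
  revert y
  induction hg using Subgroup.closure_induction with
  | mem x hx =>
    intro y
    rcases hx with rfl | hx
    · exact hS y
    · rw [Set.mem_singleton_iff] at hx
      subst hx
      exact hT y
  | one => intro y; rw [one_smul]
  | mul a b _ _ ha hb => intro y; rw [mul_smul, ha, hb]
  | inv a _ ha =>
    intro y
    have := ha (a⁻¹ • y)
    rw [smul_inv_smul] at this
    exact this.symm

/-- A function on `SL(2, ℤ) ⧸ Γ` invariant under `S` and `T` is constant. -/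
theorem const_of_S_T {Z : Type*} (f : (SL(2, ℤ) ⧸ Γ) → Z)
    (hS : ∀ y, f (ModularGroup.S • y) = f y) (hT : ∀ y, f (ModularGroup.T • y) = f y)
    (x : SL(2, ℤ) ⧸ Γ) : f x = f ((1 : SL(2, ℤ)) : SL(2, ℤ) ⧸ Γ) := by
  induction x using QuotientGroup.induction_on with
  | H h =>
    have := invariant_of_S_T f hS hT h ((1 : SL(2, ℤ)) : SL(2, ℤ) ⧸ Γ)
    rw [← this]
    congr 1
    show (h : SL(2, ℤ) ⧸ Γ) = ((h * 1 : SL(2, ℤ)) : SL(2, ℤ) ⧸ Γ)
    rw [mul_one]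

theorem exists_T_pow_fix [Finite (SL(2, ℤ) ⧸ Γ)] :
    ∃ n : ℕ, 0 < n ∧ ∀ x : SL(2, ℤ) ⧸ Γ, ModularGroup.T ^ n • x = x := by
  refine ⟨Nat.card (Equiv.Perm (SL(2, ℤ) ⧸ Γ)), Nat.card_pos, fun x => ?_⟩
  have h1 : (MulAction.toPermHom SL(2, ℤ) (SL(2, ℤ) ⧸ Γ)
      (ModularGroup.T ^ Nat.card (Equiv.Perm (SL(2, ℤ) ⧸ Γ)))) = 1 := by
    rw [map_pow, pow_card_eq_one']
  have h2 := congrArg (fun σ : Equiv.Perm (SL(2, ℤ) ⧸ Γ) => σ x) h1
  simpa using h2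

end Generators

section Relations

variable (Γ : Subgroup SL(2, ℤ)) [Fintype (SL(2, ℤ) ⧸ Γ)]

theorem rel_S (hneg : (-1 : SL(2, ℤ)) ∈ Γ) (p : parabolicHoms ℂ Γ ℂ × ((SL(2, ℤ) ⧸ Γ) → ℂ))
    (μ : (SL(2, ℤ) ⧸ Γ) → ℂ) (hμ : ∀ x, μ (ModularGroup.S • x) = μ x) :
    ∑ x, μ x * dif Γ ModularGroup.S (pot Γ p) x = 0 := by
  refine sum_mul_dif_pot_eq_zero Γ p ModularGroup.S 2 (by norm_num) ?_ ?_ μ hμ
  · intro x
    rw [S_pow_two]
    exact neg_one_smul_quot Γ hneg x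
  · rw [S_pow_two]
    exact trace_neg_one_sq

theorem rel_R (hneg : (-1 : SL(2, ℤ)) ∈ Γ) (p : parabolicHoms ℂ Γ ℂ × ((SL(2, ℤ) ⧸ Γ) → ℂ))
    (μ : (SL(2, ℤ) ⧸ Γ) → ℂ) (hμ : ∀ x, μ ((ModularGroup.S * ModularGroup.T) • x) = μ x) :
    ∑ x, μ x * dif Γ (ModularGroup.S * ModularGroup.T) (pot Γ p) x = 0 := by
  refine sum_mul_dif_pot_eq_zero Γ p (ModularGroup.S * ModularGroup.T) 3 (by norm_num) ?_ ?_ μ hμ
  · intro x
    rw [ST_pow_three]
    exact neg_one_smul_quot Γ hneg x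
  · rw [ST_pow_three]
    exact trace_neg_one_sq

theorem rel_T0 (p : parabolicHoms ℂ Γ ℂ × ((SL(2, ℤ) ⧸ Γ) → ℂ))
    (μ : (SL(2, ℤ) ⧸ Γ) → ℂ) (hμ : ∀ x, μ (ModularGroup.T • x) = μ x) :
    ∑ x, μ x * dif Γ ModularGroup.T (pot Γ p) x = 0 := by
  obtain ⟨n, hn, hfix⟩ := exists_T_pow_fix Γ
  exact sum_mul_dif_pot_eq_zero Γ p ModularGroup.T n hn hfix (trace_T_pow_sq n) μ hμ

omit [Fintype (SL(2, ℤ) ⧸ Γ)] in
theorem dif_T_eq (p : parabolicHoms ℂ Γ ℂ × ((SL(2, ℤ) ⧸ Γ) → ℂ)) (x : SL(2, ℤ) ⧸ Γ) :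
    dif Γ ModularGroup.T (pot Γ p) x
      = dif Γ (ModularGroup.S * ModularGroup.T) (pot Γ p) x
        - dif Γ ModularGroup.S (pot Γ p) (ModularGroup.T • x) := by
  induction x using QuotientGroup.induction_on with
  | H h =>
    have hT : ModularGroup.T • (h : SL(2, ℤ) ⧸ Γ)
        = ((ModularGroup.T * h : SL(2, ℤ)) : SL(2, ℤ) ⧸ Γ) := rfl
    rw [hT, dif_pot_mk, dif_pot_mk, dif_pot_mk, mul_assoc]
    ring

theorem rel_T (p : parabolicHoms ℂ Γ ℂ × ((SL(2, ℤ) ⧸ Γ) → ℂ))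
    (μ : (SL(2, ℤ) ⧸ Γ) → ℂ) (hμ : ∀ x, μ (ModularGroup.T • x) = μ x) :
    ∑ x, μ x * (dif Γ (ModularGroup.S * ModularGroup.T) (pot Γ p) x
      - dif Γ ModularGroup.S (pot Γ p) x) = 0 := by
  have h0 := rel_T0 Γ p μ hμ
  have h1 : ∑ x, μ x * dif Γ ModularGroup.S (pot Γ p) x
      = ∑ x, μ x * dif Γ ModularGroup.S (pot Γ p) (ModularGroup.T • x) := by
    rw [← Equiv.sum_comp (MulAction.toPerm ModularGroup.T)
      (fun x => μ x * dif Γ ModularGroup.S (pot Γ p) x)]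
    refine Finset.sum_congr rfl (fun x _ => ?_)
    simp only [MulAction.toPerm_apply, hμ]
  simp only [dif_T_eq, mul_sub, Finset.sum_sub_distrib] at h0
  simp only [mul_sub, Finset.sum_sub_distrib]
  rw [h1]
  exact h0

end Relations


section Kernel

variable (Γ : Subgroup SL(2, ℤ))

/-- The map `Φ(φ, v) = (D_S F, D_{ST} F)` where `F` is the potential of `(φ, v)`. -/
noncomputable def Phi : (parabolicHoms ℂ Γ ℂ × ((SL(2, ℤ) ⧸ Γ) → ℂ)) →ₗ[ℂ]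
    (((SL(2, ℤ) ⧸ Γ) → ℂ) × ((SL(2, ℤ) ⧸ Γ) → ℂ)) :=
  ((dif Γ ModularGroup.S).comp (pot Γ)).prod
    ((dif Γ (ModularGroup.S * ModularGroup.T)).comp (pot Γ))

theorem Phi_apply (p : parabolicHoms ℂ Γ ℂ × ((SL(2, ℤ) ⧸ Γ) → ℂ)) :
    Phi Γ p = (dif Γ ModularGroup.S (pot Γ p),
      dif Γ (ModularGroup.S * ModularGroup.T) (pot Γ p)) := rfl

theorem pot_const_of_Phi_eq_zero (p : parabolicHoms ℂ Γ ℂ × ((SL(2, ℤ) ⧸ Γ) → ℂ))
    (hp : Phi Γ p = 0) (g : SL(2, ℤ)) : pot Γ p g = pot Γ p 1 := by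
  rw [Phi_apply, Prod.mk_eq_zero] at hp
  obtain ⟨hS, hR⟩ := hp
  have hS' : ∀ h : SL(2, ℤ), pot Γ p (ModularGroup.S * h) = pot Γ p h := by
    intro h
    have := congrFun hS (h : SL(2, ℤ) ⧸ Γ)
    rw [dif_pot_mk] at this
    exact sub_eq_zero.mp this
  have hR' : ∀ h : SL(2, ℤ), pot Γ p (ModularGroup.S * ModularGroup.T * h) = pot Γ p h := by
    intro h
    have := congrFun hR (h : SL(2, ℤ) ⧸ Γ)
    rw [dif_pot_mk] at this
    exact sub_eq_zero.mp this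
  have hT' : ∀ h : SL(2, ℤ), pot Γ p (ModularGroup.T * h) = pot Γ p h := by
    intro h
    rw [← hS' (ModularGroup.T * h), ← mul_assoc, hR']
  have := invariant_of_S_T (Y := SL(2, ℤ)) (pot Γ p) hS' hT' g 1
  simpa using this

theorem eq_of_Phi_eq_zero (p : parabolicHoms ℂ Γ ℂ × ((SL(2, ℤ) ⧸ Γ) → ℂ))
    (hp : Phi Γ p = 0) :
    p.1 = 0 ∧ ∀ x, p.2 x = p.2 ((1 : SL(2, ℤ)) : SL(2, ℤ) ⧸ Γ) := by
  have hc := pot_const_of_Phi_eq_zero Γ p hp
  have hφ : ∀ γ : Γ, p.1.1 (Additive.ofMul γ) = 0 := by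
    intro γ
    have h1 := pot_mul_right Γ p 1 γ
    rw [hc (1 * (γ : SL(2, ℤ)))] at h1
    have h2 : pot Γ p 1 + 0 = pot Γ p 1 + p.1.1 (Additive.ofMul γ) := by
      rw [add_zero]
      exact h1
    exact (add_left_cancel h2).symm
  have hφ0 : p.1 = 0 := by
    apply Subtype.ext
    apply AddMonoidHom.ext
    intro a
    exact hφ (Additive.toMul a)
  refine ⟨hφ0, fun x => ?_⟩
  induction x using QuotientGroup.induction_on with
  | H h =>
    have h1 := pot_apply Γ p h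
    have h2 := pot_apply Γ p 1
    rw [hφ, zero_add] at h1 h2
    rw [← h1, ← h2]
    exact hc h

theorem ker_Phi_le :
    LinearMap.ker (Phi Γ) ≤ Submodule.span ℂ
      {((0 : parabolicHoms ℂ Γ ℂ), (fun _ => (1 : ℂ) : (SL(2, ℤ) ⧸ Γ) → ℂ))} := by
  intro p hp
  rw [LinearMap.mem_ker] at hp
  obtain ⟨h1, h2⟩ := eq_of_Phi_eq_zero Γ p hp
  rw [Submodule.mem_span_singleton]
  refine ⟨p.2 ((1 : SL(2, ℤ)) : SL(2, ℤ) ⧸ Γ), ?_⟩
  apply Prod.ext
  · simp [h1]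
  · ext x
    simp [h2 x]

theorem Phi_inl_injective :
    Function.Injective ((Phi Γ).comp
      (LinearMap.inl ℂ (parabolicHoms ℂ Γ ℂ) ((SL(2, ℤ) ⧸ Γ) → ℂ))) := by
  rw [← LinearMap.ker_eq_bot, LinearMap.ker_eq_bot']
  intro φ hφ
  exact (eq_of_Phi_eq_zero Γ (φ, 0) hφ).1

end Kernel


section Pairing

variable (Γ : Subgroup SL(2, ℤ))

/-- The projection to the orbit space of `zpowers g`. -/
def prj (g : SL(2, ℤ)) (x : SL(2, ℤ) ⧸ Γ) : orbitRel.Quotient (zpowers g) (SL(2, ℤ) ⧸ Γ) :=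
  Quotient.mk'' x

theorem prj_smul (g : SL(2, ℤ)) (x : SL(2, ℤ) ⧸ Γ) : prj Γ g (g • x) = prj Γ g x := by
  apply Quotient.sound'
  show g • x ∈ orbit (zpowers g) x
  exact ⟨⟨g, mem_zpowers g⟩, rfl⟩

theorem prj_surjective (g : SL(2, ℤ)) : Function.Surjective (prj Γ g) :=
  Quotient.mk''_surjective

variable [Fintype (SL(2, ℤ) ⧸ Γ)]

/-- The pairing between pairs of functions on `X` and triples of functions on the orbit
spaces of `S`, `S * T`, `T`. -/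
noncomputable def pair :
    (((SL(2, ℤ) ⧸ Γ) → ℂ) × ((SL(2, ℤ) ⧸ Γ) → ℂ)) →ₗ[ℂ]
      Module.Dual ℂ ((orbitRel.Quotient (zpowers ModularGroup.S) (SL(2, ℤ) ⧸ Γ) → ℂ) ×
        (orbitRel.Quotient (zpowers (ModularGroup.S * ModularGroup.T)) (SL(2, ℤ) ⧸ Γ) → ℂ) ×
        (orbitRel.Quotient (zpowers ModularGroup.T) (SL(2, ℤ) ⧸ Γ) → ℂ)) :=
  LinearMap.mk₂ ℂ
    (fun ab l => ∑ x, (l.1 (prj Γ ModularGroup.S x) * ab.1 x
      + l.2.1 (prj Γ (ModularGroup.S * ModularGroup.T) x) * ab.2 x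
      + l.2.2 (prj Γ ModularGroup.T x) * (ab.2 x - ab.1 x)))
    (by
      intro ab ab' l
      rw [← Finset.sum_add_distrib]
      refine Finset.sum_congr rfl (fun x _ => ?_)
      simp only [Prod.fst_add, Prod.snd_add, Pi.add_apply]
      ring)
    (by
      intro c ab l
      rw [smul_eq_mul, Finset.mul_sum]
      refine Finset.sum_congr rfl (fun x _ => ?_)
      simp only [Prod.smul_fst, Prod.smul_snd, Pi.smul_apply, smul_eq_mul]
      ring)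
    (by
      intro ab l l'
      rw [← Finset.sum_add_distrib]
      refine Finset.sum_congr rfl (fun x _ => ?_)
      simp only [Prod.fst_add, Prod.snd_add, Pi.add_apply]
      ring)
    (by
      intro c ab l
      rw [smul_eq_mul, Finset.mul_sum]
      refine Finset.sum_congr rfl (fun x _ => ?_)
      simp only [Prod.smul_fst, Prod.smul_snd, Pi.smul_apply, smul_eq_mul]
      ring)

theorem pair_apply (ab : ((SL(2, ℤ) ⧸ Γ) → ℂ) × ((SL(2, ℤ) ⧸ Γ) → ℂ))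
    (l : (orbitRel.Quotient (zpowers ModularGroup.S) (SL(2, ℤ) ⧸ Γ) → ℂ) ×
        (orbitRel.Quotient (zpowers (ModularGroup.S * ModularGroup.T)) (SL(2, ℤ) ⧸ Γ) → ℂ) ×
        (orbitRel.Quotient (zpowers ModularGroup.T) (SL(2, ℤ) ⧸ Γ) → ℂ)) :
    pair Γ ab l = ∑ x, (l.1 (prj Γ ModularGroup.S x) * ab.1 x
      + l.2.1 (prj Γ (ModularGroup.S * ModularGroup.T) x) * ab.2 x
      + l.2.2 (prj Γ ModularGroup.T x) * (ab.2 x - ab.1 x)) := rfl

theorem pair_Phi (hneg : (-1 : SL(2, ℤ)) ∈ Γ)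
    (p : parabolicHoms ℂ Γ ℂ × ((SL(2, ℤ) ⧸ Γ) → ℂ)) : pair Γ (Phi Γ p) = 0 := by
  apply LinearMap.ext
  intro l
  rw [pair_apply, Phi_apply, Finset.sum_add_distrib, Finset.sum_add_distrib]
  have h1 := rel_S Γ hneg p (fun x => l.1 (prj Γ ModularGroup.S x))
    (fun x => by simp only [prj_smul])
  have h2 := rel_R Γ hneg p (fun x => l.2.1 (prj Γ (ModularGroup.S * ModularGroup.T) x))
    (fun x => by simp only [prj_smul])
  have h3 := rel_T Γ p (fun x => l.2.2 (prj Γ ModularGroup.T x))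
    (fun x => by simp only [prj_smul])
  simp only at h1 h2 h3 ⊢
  rw [h1, h2, h3]
  simp

theorem range_Phi_le_ker_pair (hneg : (-1 : SL(2, ℤ)) ∈ Γ) :
    LinearMap.range (Phi Γ) ≤ LinearMap.ker (pair Γ) := by
  rintro _ ⟨p, rfl⟩
  rw [LinearMap.mem_ker]
  exact pair_Phi Γ hneg p

theorem coann_le :
    (LinearMap.range (pair Γ)).dualCoannihilator ≤ Submodule.span ℂ
      {(((fun _ => (1 : ℂ)), (fun _ => (-1 : ℂ)), (fun _ => (1 : ℂ))) :
        (orbitRel.Quotient (zpowers ModularGroup.S) (SL(2, ℤ) ⧸ Γ) → ℂ) ×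
        (orbitRel.Quotient (zpowers (ModularGroup.S * ModularGroup.T)) (SL(2, ℤ) ⧸ Γ) → ℂ) ×
        (orbitRel.Quotient (zpowers ModularGroup.T) (SL(2, ℤ) ⧸ Γ) → ℂ))} := by
  classical
  intro l hl
  rw [Submodule.mem_dualCoannihilator] at hl
  have hl' : ∀ ab, pair Γ ab l = 0 := fun ab => hl _ ⟨ab, rfl⟩
  -- test against indicator functions
  have e1 : ∀ x, l.1 (prj Γ ModularGroup.S x) = l.2.2 (prj Γ ModularGroup.T x) := by
    intro x
    have := hl' (Pi.single x 1, 0)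
    rw [pair_apply] at this
    simp only [Pi.zero_apply, mul_zero, add_zero, zero_sub, Pi.single_apply, mul_ite, mul_one,
      mul_neg, ← sub_eq_add_neg] at this
    rw [Finset.sum_sub_distrib] at this
    simp only [Finset.sum_ite_eq', Finset.mem_univ, if_true] at this
    exact sub_eq_zero.mp this
  have e2 : ∀ x, l.2.1 (prj Γ (ModularGroup.S * ModularGroup.T) x)
      = - l.2.2 (prj Γ ModularGroup.T x) := by
    intro x
    have := hl' (0, Pi.single x 1)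
    rw [pair_apply] at this
    simp only [Pi.zero_apply, mul_zero, zero_add, sub_zero, Pi.single_apply, mul_ite,
      mul_one] at this
    rw [Finset.sum_add_distrib] at this
    simp only [Finset.sum_ite_eq', Finset.mem_univ, if_true] at this
    exact eq_neg_of_add_eq_zero_left this
  have hT : ∀ x, l.2.2 (prj Γ ModularGroup.T (ModularGroup.T • x))
      = l.2.2 (prj Γ ModularGroup.T x) := fun x => by rw [prj_smul]
  have hS : ∀ x, l.2.2 (prj Γ ModularGroup.T (ModularGroup.S • x))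
      = l.2.2 (prj Γ ModularGroup.T x) := fun x => by rw [← e1, ← e1, prj_smul]
  have hc := const_of_S_T Γ (fun x => l.2.2 (prj Γ ModularGroup.T x)) hS hT
  rw [Submodule.mem_span_singleton]
  refine ⟨l.2.2 (prj Γ ModularGroup.T ((1 : SL(2, ℤ)) : SL(2, ℤ) ⧸ Γ)), ?_⟩
  refine Prod.ext ?_ (Prod.ext ?_ ?_)
  · funext q
    obtain ⟨x, rfl⟩ := prj_surjective Γ ModularGroup.S q
    simp [e1, hc x]
  · funext q
    obtain ⟨x, rfl⟩ := prj_surjective Γ (ModularGroup.S * ModularGroup.T) q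
    simp [e2, hc x]
  · funext q
    obtain ⟨x, rfl⟩ := prj_surjective Γ ModularGroup.T q
    simp [hc x]

end Pairing

section Final

variable (Γ : Subgroup SL(2, ℤ))

theorem finrank_parabolicHoms_le_aux [Fintype (SL(2, ℤ) ⧸ Γ)] (hneg : (-1 : SL(2, ℤ)) ∈ Γ) :
    Module.Finite ℂ (parabolicHoms ℂ Γ ℂ) ∧
    Module.finrank ℂ (parabolicHoms ℂ Γ ℂ)
      + Nat.card (orbitRel.Quotient (zpowers ModularGroup.S) (SL(2, ℤ) ⧸ Γ))
      + Nat.card (orbitRel.Quotient (zpowers (ModularGroup.S * ModularGroup.T)) (SL(2, ℤ) ⧸ Γ))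
      + Nat.card (orbitRel.Quotient (zpowers ModularGroup.T) (SL(2, ℤ) ⧸ Γ))
      ≤ Nat.card (SL(2, ℤ) ⧸ Γ) + 2 := by
  classical
  have hfin : Module.Finite ℂ (parabolicHoms ℂ Γ ℂ) :=
    Module.Finite.of_injective _ (Phi_inl_injective Γ)
  refine ⟨hfin, ?_⟩
  have : Fintype (orbitRel.Quotient (zpowers ModularGroup.S) (SL(2, ℤ) ⧸ Γ)) :=
    Fintype.ofFinite _
  have : Fintype (orbitRel.Quotient (zpowers (ModularGroup.S * ModularGroup.T))
      (SL(2, ℤ) ⧸ Γ)) := Fintype.ofFinite _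
  have : Fintype (orbitRel.Quotient (zpowers ModularGroup.T) (SL(2, ℤ) ⧸ Γ)) :=
    Fintype.ofFinite _
  -- rank-nullity for Phi
  have h1 := LinearMap.finrank_range_add_finrank_ker (Phi Γ)
  have h2 : Module.finrank ℂ (LinearMap.ker (Phi Γ)) ≤ 1 :=
    (Submodule.finrank_mono (ker_Phi_le Γ)).trans (by
      refine (finrank_span_le_card _).trans ?_
      simp)
  have h3 : Module.finrank ℂ (LinearMap.range (Phi Γ))
      ≤ Module.finrank ℂ (LinearMap.ker (pair Γ)) :=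
    Submodule.finrank_mono (range_Phi_le_ker_pair Γ hneg)
  -- rank-nullity for the pairing
  have h4 := LinearMap.finrank_range_add_finrank_ker (pair Γ)
  have h5 := Subspace.finrank_add_finrank_dualCoannihilator_eq (LinearMap.range (pair Γ))
  have h6 : Module.finrank ℂ (LinearMap.range (pair Γ)).dualCoannihilator ≤ 1 :=
    (Submodule.finrank_mono (coann_le Γ)).trans (by
      refine (finrank_span_le_card _).trans ?_
      simp)
  simp only [Module.finrank_prod, Module.finrank_fintype_fun_eq_card] at h1 h4 h5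
  simp only [Nat.card_eq_fintype_card]
  omega

end Final

open scoped MatrixGroups in
open MulAction Subgroup in
theorem finrank_parabolicHoms_le (Γ : Subgroup SL(2, ℤ)) [Γ.FiniteIndex]
    (hneg : (-1 : SL(2, ℤ)) ∈ Γ) :
    Module.Finite ℂ (ModularCurve.Period.parabolicHoms ℂ Γ ℂ) ∧
    Module.finrank ℂ (ModularCurve.Period.parabolicHoms ℂ Γ ℂ)
      + Nat.card (orbitRel.Quotient (zpowers ModularGroup.S) (SL(2, ℤ) ⧸ Γ))
      + Nat.card (orbitRel.Quotient (zpowers (ModularGroup.S * ModularGroup.T)) (SL(2, ℤ) ⧸ Γ))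
      + Nat.card (orbitRel.Quotient (zpowers ModularGroup.T) (SL(2, ℤ) ⧸ Γ))
      ≤ Nat.card (SL(2, ℤ) ⧸ Γ) + 2 := by
  have : Fintype (SL(2, ℤ) ⧸ Γ) := Fintype.ofFinite _
  exact finrank_parabolicHoms_le_aux Γ hneg

end Fermat.Agent.S21.helper71
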